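import Fermat.Agent.S41.Forms.Trace
import Fermat.Prelude.Def_CuspForm_HeckeAlgebra

/-!
# S41 / FORMS : the old subspace is stable under the full Hecke algebra of level `N p`
-/

set_option autoImplicit false

open UpperHalfPlane ModularForm CongruenceSubgroup
open scoped MatrixGroups ModularForm Pointwise

noncomputable section

namespace Fermat.Agent.S41.Forms

open Matrix.SpecialLinearGroup (mapGL)

theorem sum_range_mul_of_periodic {α : Type*} [AddCommMonoid α] {l p : ℕ} (hl : l ≠ 0)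
    (hc : Nat.Coprime p l) (F : ℕ → α) (hF : ∀ s, F (s % l) = F s) :
    ∑ j ∈ Finset.range l, F (p * j) = ∑ j ∈ Finset.range l, F j := by
  have hmaps : ∀ j ∈ Finset.range l, (p * j) % l ∈ Finset.range l := fun j _ =>
    Finset.mem_range.2 (Nat.mod_lt _ (Nat.pos_of_ne_zero hl))
  have hinj : Set.InjOn (fun j => (p * j) % l) (Finset.range l) := by
    intro j hj j' hj' h
    have h1 : p * j ≡ p * j' [MOD l] := h
    have h2 : j ≡ j' [MOD l] := Nat.ModEq.cancel_left_of_coprime (Nat.coprime_comm.mp hc) h1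
    exact Nat.ModEq.eq_of_lt_of_lt h2 (Finset.mem_range.1 hj) (Finset.mem_range.1 hj')
  have hsurj : Set.SurjOn (fun j => (p * j) % l) (Finset.range l) (Finset.range l) :=
    Finset.surjOn_of_injOn_of_card_le _ hmaps hinj le_rfl
  calc ∑ j ∈ Finset.range l, F (p * j) = ∑ j ∈ Finset.range l, F ((p * j) % l) := by
        simp only [hF]
    _ = ∑ j ∈ Finset.range l, F j :=
        Finset.sum_nbij (fun j => (p * j) % l) hmaps hinj hsurj (fun _ _ => rfl)

/-- `U_l` commutes with `B_p` for `l` prime to `p` (on functions invariant under translations). -/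
theorem heckeU_slash_diag {l p : ℕ} (hl : l ≠ 0) (hp : p ≠ 0) (hc : Nat.Coprime p l) (f : ℍ → ℂ)
    (hf : ∀ (t : SL(2, ℤ)) (m : ℤ), (t : Matrix (Fin 2) (Fin 2) ℤ) = !![1, m; 0, 1] →
      f ∣[(2 : ℤ)] mapGL ℝ t = f) :
    heckeU 2 l (f ∣[(2 : ℤ)] heckeDiagMatrix p) = (heckeU 2 l f) ∣[(2 : ℤ)] heckeDiagMatrix p := by
  let F : ℕ → (ℍ → ℂ) := fun s => f ∣[(2 : ℤ)] (heckeMatrix l s * heckeDiagMatrix p)
  have hF : ∀ s, F (s % l) = F s := by
    intro s
    obtain ⟨m, r, hr, hm⟩ : ∃ m r : ℕ, r = s % l ∧ s = r + l * m :=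
      ⟨s / l, s % l, rfl, (Nat.mod_add_div s l).symm⟩
    rw [← hr]
    obtain ⟨t, ht⟩ := exists_T (m : ℤ)
    have e : heckeMatrix l s = mapGL ℝ t * heckeMatrix l r := by
      apply Units.ext
      simp only [Units.val_mul, val_heckeMatrix hl]
      have hs : (s : ℝ) = (r : ℝ) + (l : ℝ) * (m : ℝ) := by
        exact_mod_cast hm
      ext i k
      fin_cases i <;> fin_cases k <;>
        simp [Matrix.mul_apply, Fin.sum_univ_two, ht]
      rw [hs]; ring
    simp only [F]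
    rw [e, mul_assoc, SlashAction.slash_mul _ (mapGL ℝ t), hf t _ ht]
  have h1 : heckeU 2 l (f ∣[(2 : ℤ)] heckeDiagMatrix p) = ∑ j ∈ Finset.range l, F (p * j) := by
    rw [heckeU_def]
    refine Finset.sum_congr rfl fun j _ => ?_
    simp only [F]
    rw [← SlashAction.slash_mul]
    congr 1
    apply Units.ext
    simp only [Units.val_mul, val_heckeMatrix hl, val_heckeDiagMatrix hp]
    ext i k
    fin_cases i <;> fin_cases k <;>
      simp [Matrix.mul_apply, Fin.sum_univ_two]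
  have h2 : (heckeU 2 l f) ∣[(2 : ℤ)] heckeDiagMatrix p = ∑ j ∈ Finset.range l, F j := by
    rw [heckeU_def, SlashAction.sum_slash]
    refine Finset.sum_congr rfl fun j _ => ?_
    simp only [F]
    rw [SlashAction.slash_mul]
  rw [h1, h2, sum_range_mul_of_periodic hl hc F hF]

theorem heckeDiag_comm (l p : ℕ) :
    heckeDiagMatrix p * heckeDiagMatrix l = heckeDiagMatrix l * heckeDiagMatrix p := by
  rcases eq_or_ne l 0 with rfl | hl
  · simp
  rcases eq_or_ne p 0 with rfl | hp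
  · simp
  apply Units.ext
  simp only [Units.val_mul, val_heckeDiagMatrix hl, val_heckeDiagMatrix hp]
  ext i k
  fin_cases i <;> fin_cases k <;>
    simp [Matrix.mul_apply, Fin.sum_univ_two, mul_comm]

theorem heckeT_slash_diag {l p : ℕ} (hl : l ≠ 0) (hp : p ≠ 0) (hc : Nat.Coprime p l) (f : ℍ → ℂ)
    (hf : ∀ (t : SL(2, ℤ)) (m : ℤ), (t : Matrix (Fin 2) (Fin 2) ℤ) = !![1, m; 0, 1] →
      f ∣[(2 : ℤ)] mapGL ℝ t = f) :
    heckeT 2 l (f ∣[(2 : ℤ)] heckeDiagMatrix p) = (heckeT 2 l f) ∣[(2 : ℤ)] heckeDiagMatrix p := by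
  rw [heckeT_eq_heckeU_add, heckeT_eq_heckeU_add, SlashAction.add_slash,
    heckeU_slash_diag hl hp hc f hf, ← SlashAction.slash_mul, ← SlashAction.slash_mul,
    heckeDiag_comm]

theorem slash_T_of_cuspForm {M : ℕ} (f : CuspForm (Gamma0 M) 2) (t : SL(2, ℤ)) (m : ℤ)
    (ht : (t : Matrix (Fin 2) (Fin 2) ℤ) = !![1, m; 0, 1]) : ⇑f ∣[(2 : ℤ)] mapGL ℝ t = ⇑f := by
  apply slash_mapGL_of_mem
  rw [Gamma0_mem, ht]
  simp

variable {N p : ℕ}

theorem T_iOp {l : ℕ} (hl : l.Prime) (hlN : ¬ l ∣ N) (hlNp : ¬ l ∣ N * p)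
    (f : CuspForm (Gamma0 N) 2) :
    CuspForm.heckeTLin 2 hl hlNp (iOp N p f) = iOp N p (CuspForm.heckeTLin 2 hl hlN f) := rfl

theorem T_bOp {l : ℕ} (hl : l.Prime) (hlN : ¬ l ∣ N) (hlNp : ¬ l ∣ N * p) (hp : p ≠ 0)
    (f : CuspForm (Gamma0 N) 2) :
    CuspForm.heckeTLin 2 hl hlNp (bOp N hp f) = bOp N hp (CuspForm.heckeTLin 2 hl hlN f) := by
  apply DFunLike.coe_injective
  have hc : Nat.Coprime p l := by
    rw [Nat.coprime_comm, Nat.Prime.coprime_iff_not_dvd hl]
    exact fun h => hlNp (h.mul_left N)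
  simp only [CuspForm.coe_heckeTLin_apply, coe_bOp]
  exact heckeT_slash_diag hl.ne_zero hp hc _ (slash_T_of_cuspForm f)

theorem Ul_iOp [NeZero N] [NeZero (N * p)] {l : ℕ} (hlN : l ∣ N) (hlNp : l ∣ N * p)
    (f : CuspForm (Gamma0 N) 2) :
    CuspForm.heckeULin 2 hlNp (iOp N p f) = iOp N p (CuspForm.heckeULin 2 hlN f) := rfl

theorem Ul_bOp [NeZero N] [NeZero (N * p)] {l : ℕ} (hlN : l ∣ N) (hlNp : l ∣ N * p) (hp : p ≠ 0)
    (hc : Nat.Coprime p l) (f : CuspForm (Gamma0 N) 2) :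
    CuspForm.heckeULin 2 hlNp (bOp N hp f) = bOp N hp (CuspForm.heckeULin 2 hlN f) := by
  apply DFunLike.coe_injective
  have hl : l ≠ 0 := fun h => NeZero.ne N (by rw [h] at hlN; exact Nat.eq_zero_of_zero_dvd hlN)
  simp only [CuspForm.coe_heckeULin_apply, coe_bOp]
  exact heckeU_slash_diag hl hp hc _ (slash_T_of_cuspForm f)

theorem T_old {l : ℕ} (hl : l.Prime) (hlNp : ¬ l ∣ N * p) (hp : p ≠ 0)
    {x : CuspForm (Gamma0 (N * p)) 2} (hx : x ∈ old N hp) :
    CuspForm.heckeTLin 2 hl hlNp x ∈ old N hp := by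
  have hlN : ¬ l ∣ N := fun h => hlNp (h.mul_right p)
  refine old_induction N hp _ (fun f => ?_) (fun f => ?_) hx
  · rw [T_iOp hl hlN]; exact iOp_mem_old _ _ _
  · rw [T_bOp hl hlN]; exact bOp_mem_old _ _ _

theorem Ul_old [NeZero N] [NeZero (N * p)] {l : ℕ} (hlN : l ∣ N) (hlNp : l ∣ N * p) (hp : p ≠ 0)
    (hc : Nat.Coprime p l) {x : CuspForm (Gamma0 (N * p)) 2} (hx : x ∈ old N hp) :
    CuspForm.heckeULin 2 hlNp x ∈ old N hp := by
  refine old_induction N hp _ (fun f => ?_) (fun f => ?_) hx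
  · rw [Ul_iOp hlN]; exact iOp_mem_old _ _ _
  · rw [Ul_bOp hlN hlNp hp hc]; exact bOp_mem_old _ _ _

/-- **The old subspace is stable under the full Hecke algebra.** -/
theorem heckeAlgebra_old [NeZero N] (hp : p.Prime) (hpN : ¬ p ∣ N) [NeZero (N * p)] (S : Set ℕ)
    (t : Module.End ℂ (CuspForm (Gamma0 (N * p)) 2)) (ht : t ∈ CuspForm.heckeAlgebra (N * p) 2 S)
    {x : CuspForm (Gamma0 (N * p)) 2} (hx : x ∈ old N hp.ne_zero) : t x ∈ old N hp.ne_zero := by
  induction ht using Algebra.adjoin_induction generalizing x with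
  | mem t ht =>
    rcases ht with ⟨l, hl, hlN, -, rfl⟩ | ⟨q, hqN, hq, -, rfl⟩
    · exact T_old hl hlN hp.ne_zero hx
    · by_cases hqp : q = p
      · subst hqp
        exact U_old hp hpN hx
      · have hq' : q ∣ N := by
          rcases (Nat.Prime.dvd_mul hq).mp hqN with h | h
          · exact h
          · exact absurd ((Nat.prime_dvd_prime_iff_eq hq hp).mp h) hqp
        exact Ul_old hq' hqN hp.ne_zero ((Nat.coprime_primes hp hq).mpr (Ne.symm hqp)) hx
  | algebraMap r =>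
    rw [Algebra.algebraMap_eq_smul_one, LinearMap.smul_apply, Module.End.one_apply]
    exact (old N hp.ne_zero).smul_of_tower_mem r hx
  | add a b _ _ ha hb =>
    rw [LinearMap.add_apply]
    exact (old N hp.ne_zero).add_mem (ha hx) (hb hx)
  | mul a b _ _ ha hb =>
    rw [Module.End.mul_apply]
    exact ha (hb hx)

/-- the form requested by `Forms/Lin.lean`. -/
theorem old_stable [NeZero N] (hp : p.Prime) (hpN : ¬ p ∣ N) [NeZero (N * p)] (S : Set ℕ) :
    ∀ t ∈ CuspForm.heckeGenerators (N * p) 2 S, ∀ f ∈ old N hp.ne_zero, t f ∈ old N hp.ne_zero :=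
  fun t ht _ hf => heckeAlgebra_old hp hpN S t (Algebra.subset_adjoin ht) hf

end Fermat.Agent.S41.Forms
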