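import Mathlib
import Fermat.Prelude.Def_ModularForm_HeckeOperatorForms
import Fermat.Agent.GAL.LevelRaise

/-!
# S41 / FORMS : `U_p² = 1` on `S₂(Γ₀(N p)) / old`

`p` prime, `p ∤ N`.  `old = S₂(N) + B S₂(N)`.  We construct the Atkin-Lehner operator `wOp` at `p`,
prove the trace formula `g + U_p (g ∣ W) ∈ S₂(N)`, `W² = 1`, `U_p old ≤ old`, and deduce
`U_p² g - g ∈ old`.
-/

set_option autoImplicit false

open UpperHalfPlane ModularForm CongruenceSubgroup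
open scoped MatrixGroups ModularForm Pointwise

noncomputable section

namespace Fermat.Agent.S41.Forms

open Matrix.SpecialLinearGroup (mapGL)

/-! ## A. slash operators between levels -/

open ConjAct in
theorem le_conj_of_intertwine {M M' : ℕ} (A : GL (Fin 2) ℝ)
    (hA : ∀ γ ∈ Gamma0 M, ∃ δ ∈ Gamma0 M', A * mapGL ℝ γ = mapGL ℝ δ * A) :
    (Gamma0 M).map (mapGL ℝ) ≤ toConjAct A⁻¹ • (Gamma0 M').map (mapGL ℝ) := by
  rintro _ ⟨γ, hγ, rfl⟩
  obtain ⟨δ, hδ, h⟩ := hA γ hγ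
  rw [map_inv, Subgroup.mem_inv_pointwise_smul_iff, toConjAct_smul, h, mul_inv_cancel_right]
  exact ⟨δ, hδ, rfl⟩

/-- `f ↦ f ∣ A` from level `M'` to level `M`. -/
def slashOp {M M' : ℕ} (A : GL (Fin 2) ℝ) (hdet : 0 < (A.det : ℝ))
    (hA : ∀ γ ∈ Gamma0 M, ∃ δ ∈ Gamma0 M', A * mapGL ℝ γ = mapGL ℝ δ * A) :
    CuspForm (Gamma0 M') 2 →ₗ[ℂ] CuspForm (Gamma0 M) 2 where
  toFun f :=
    { toFun := ⇑f ∣[(2 : ℤ)] A
      slash_action_eq' := fun γ hγ =>
        (CuspForm.translate f A).slash_action_eq' γ (le_conj_of_intertwine A hA hγ)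
      holo' := (CuspForm.translate f A).holo'
      zero_at_cusps' := fun hc =>
        (CuspForm.translate f A).zero_at_cusps' (hc.mono (le_conj_of_intertwine A hA)) }
  map_add' f g := DFunLike.coe_injective <|
    show (⇑(f + g)) ∣[(2 : ℤ)] A = ⇑f ∣[(2 : ℤ)] A + ⇑g ∣[(2 : ℤ)] A by
      rw [CuspForm.coe_add, SlashAction.add_slash]
  map_smul' c f := DFunLike.coe_injective <|
    show (⇑(c • f)) ∣[(2 : ℤ)] A = c • (⇑f ∣[(2 : ℤ)] A) by
      rw [CuspForm.IsGLPos.coe_smul, ModularForm.smul_slash, UpperHalfPlane.σ, if_pos hdet]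
      rfl

@[simp] theorem coe_slashOp {M M' : ℕ} (A : GL (Fin 2) ℝ) (hdet : 0 < (A.det : ℝ))
    (hA : ∀ γ ∈ Gamma0 M, ∃ δ ∈ Gamma0 M', A * mapGL ℝ γ = mapGL ℝ δ * A)
    (f : CuspForm (Gamma0 M') 2) : ⇑(slashOp A hdet hA f) = ⇑f ∣[(2 : ℤ)] A := rfl

/-! ## B. sums over coset representatives -/

theorem sum_slash_invariant {ι : Type*} [Fintype ι] (H : Subgroup (GL (Fin 2) ℝ))
    (R : ι → GL (Fin 2) ℝ) (g : ℍ → ℂ) (k : ℤ) (hg : ∀ h ∈ H, g ∣[k] h = g) (γ : GL (Fin 2) ℝ)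
    (ha : ∀ i, ∃ i', R i * γ * (R i')⁻¹ ∈ H)
    (hb : ∀ i i', R i * (R i')⁻¹ ∈ H → i = i') :
    (∑ i, g ∣[k] R i) ∣[k] γ = ∑ i, g ∣[k] R i := by
  choose σ hσ using ha
  have hinj : Function.Injective σ := by
    intro i i' h
    apply hb
    have h1 := hσ i
    have h2 := hσ i'
    rw [← h] at h2
    have h3 := H.mul_mem h1 (H.inv_mem h2)
    have h4 : R i * γ * (R (σ i))⁻¹ * (R i' * γ * (R (σ i))⁻¹)⁻¹ = R i * (R i')⁻¹ := by group
    rwa [h4] at h3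
  have hbij : Function.Bijective σ := Finite.injective_iff_bijective.mp hinj
  rw [SlashAction.sum_slash]
  rw [← hbij.sum_comp (fun i => g ∣[k] R i)]
  refine Finset.sum_congr rfl fun i _ => ?_
  rw [← SlashAction.slash_mul]
  have h5 : R i * γ = (R i * γ * (R (σ i))⁻¹) * R (σ i) := by group
  rw [h5, SlashAction.slash_mul, hg _ (hσ i)]

/-! ## scalar matrices act trivially in weight 2 -/

/-- the scalar matrix `c`. -/
def scalarGL (c : ℝ) (hc : c ≠ 0) : GL (Fin 2) ℝ :=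
  upperTriangularGL c 0 c (mul_ne_zero hc hc)

theorem slash_scalarGL (c : ℝ) (hc : 0 < c) (f : ℍ → ℂ) :
    f ∣[(2 : ℤ)] scalarGL c hc.ne' = f := by
  have hdet : ((scalarGL c hc.ne').det : ℝ) = c * c := by
    rw [Matrix.GeneralLinearGroup.val_det_apply, scalarGL, val_upperTriangularGL,
      Matrix.det_fin_two_of]
    ring
  have hpos : 0 < ((scalarGL c hc.ne').det : ℝ) := by rw [hdet]; positivity
  have hcc : (c : ℂ) ≠ 0 := by exact_mod_cast hc.ne'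
  ext τ
  have hsm : scalarGL c hc.ne' • τ = τ := by
    apply UpperHalfPlane.ext
    rw [UpperHalfPlane.coe_smul_of_det_pos hpos]
    simp [UpperHalfPlane.num, UpperHalfPlane.denom, scalarGL]
    field_simp
  rw [ModularForm.slash_apply, UpperHalfPlane.σ, if_pos hpos, hdet, hsm]
  simp [UpperHalfPlane.denom, scalarGL]
  field_simp

/-! ## C. the coset representatives of `Γ₀(N p) \ Γ₀(N)` -/

/-- Bezout data: `p * d - N * b = 1`. -/
structure Bez (N p : ℕ) where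
  b : ℤ
  d : ℤ
  h : (p : ℤ) * d - (N : ℤ) * b = 1

theorem exists_bez {N p : ℕ} (hp : p.Prime) (hpN : ¬ p ∣ N) : Nonempty (Bez N p) := by
  have hc : IsCoprime (p : ℤ) (N : ℤ) := by
    rw [Nat.isCoprime_iff_coprime]
    exact (Nat.Prime.coprime_iff_not_dvd hp).mpr hpN
  obtain ⟨u, v, huv⟩ := hc
  exact ⟨⟨-v, u, by linear_combination huv⟩⟩

variable {N p : ℕ}

/-- the representative `r_j = [[1, j + b],[N, N j + p d]]`. -/
def rep (B : Bez N p) (j : ℤ) : SL(2, ℤ) :=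
  ⟨!![1, j + B.b; (N : ℤ), N * j + p * B.d], by
    rw [Matrix.det_fin_two_of]; linear_combination B.h⟩

theorem coe_rep (B : Bez N p) (j : ℤ) : (rep B j : Matrix (Fin 2) (Fin 2) ℤ) =
    !![1, j + B.b; (N : ℤ), N * j + p * B.d] := rfl

theorem rep_mem (B : Bez N p) (j : ℤ) : rep B j ∈ Gamma0 N := by
  rw [Gamma0_mem, ZMod.intCast_zmod_eq_zero_iff_dvd]
  simp [rep]

/-- lower left entry of `δ * γ⁻¹`. -/
theorem mul_inv_one_zero (δ γ : SL(2, ℤ)) :
    (δ * γ⁻¹) 1 0 = δ 1 0 * γ 1 1 - δ 1 1 * γ 1 0 := by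
  have h := Matrix.SpecialLinearGroup.SL2_inv_expl γ
  rw [Matrix.SpecialLinearGroup.coe_mul, Matrix.mul_apply, Fin.sum_univ_two, h]
  simp
  ring

/-- all representatives. -/
def repO (B : Bez N p) : Option (Fin p) → SL(2, ℤ)
  | none => 1
  | some j => rep B (j : ℕ)

theorem repO_mem (B : Bez N p) (i : Option (Fin p)) : repO B i ∈ Gamma0 N := by
  cases i with
  | none => exact one_mem _
  | some j => exact rep_mem B _

theorem exists_repO (hp : p.Prime) (hpN : ¬ p ∣ N) (B : Bez N p) {δ : SL(2, ℤ)}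
    (hδ : δ ∈ Gamma0 N) : ∃ i, δ * (repO B i)⁻¹ ∈ Gamma0 (N * p) := by
  have : Fact p.Prime := ⟨hp⟩
  rw [Gamma0_mem, ZMod.intCast_zmod_eq_zero_iff_dvd] at hδ
  obtain ⟨c, hc⟩ := hδ
  by_cases hpc : (p : ℤ) ∣ c
  · refine ⟨none, ?_⟩
    obtain ⟨c', rfl⟩ := hpc
    rw [Gamma0_mem, ZMod.intCast_zmod_eq_zero_iff_dvd]
    simp only [repO, inv_one, mul_one, hc]
    exact ⟨c', by push_cast; ring⟩
  · have hcN : ((c * N : ℤ) : ZMod p) ≠ 0 := by
      rw [Ne, ZMod.intCast_zmod_eq_zero_iff_dvd]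
      intro h
      rcases (Nat.prime_iff_prime_int.mp hp).dvd_or_dvd h with h | h
      · exact hpc h
      · exact hpN (Int.natCast_dvd_natCast.mp h)
    obtain ⟨j, hjp, t, ht⟩ : ∃ j : ℕ, j < p ∧ ∃ t : ℤ, c * N * (j : ℤ) - δ 1 1 = p * t := by
      let j0 : ZMod p := (δ 1 1 : ZMod p) * ((c * N : ℤ) : ZMod p)⁻¹
      refine ⟨j0.val, ZMod.val_lt j0, ?_⟩
      have h1 : (p : ℤ) ∣ c * N * (j0.val : ℤ) - δ 1 1 := by
        rw [← ZMod.intCast_zmod_eq_zero_iff_dvd]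
        rw [Int.cast_sub, Int.cast_mul, Int.cast_natCast, ZMod.natCast_zmod_val]
        simp only [j0]
        rw [mul_comm (δ 1 1 : ZMod p), ← mul_assoc, mul_inv_cancel₀ hcN, one_mul, sub_self]
      exact h1
    refine ⟨some ⟨j, hjp⟩, ?_⟩
    rw [Gamma0_mem, ZMod.intCast_zmod_eq_zero_iff_dvd, mul_inv_one_zero]
    simp only [repO, rep, hc]
    refine ⟨t + c * B.d, ?_⟩
    simp
    linear_combination (N : ℤ) * ht

theorem repO_inj (hp : p.Prime) (hpN : ¬ p ∣ N) (hN : N ≠ 0) (B : Bez N p) (i i' : Option (Fin p))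
    (h : repO B i * (repO B i')⁻¹ ∈ Gamma0 (N * p)) : i = i' := by
  rw [Gamma0_mem, ZMod.intCast_zmod_eq_zero_iff_dvd, mul_inv_one_zero] at h
  have hN' : (N : ℤ) ≠ 0 := by exact_mod_cast hN
  have hp1 : ¬ (p : ℤ) ∣ 1 := by
    intro h1
    have := Int.natCast_dvd_natCast.mp (by simpa using h1 : ((p : ℕ) : ℤ) ∣ ((1 : ℕ) : ℤ))
    exact hp.one_lt.ne' (Nat.dvd_one.mp this)
  have hNp : ¬ ((N : ℤ) * p ∣ N) := by
    intro h1
    apply hp1
    have h2 : (N : ℤ) * p ∣ N * 1 := by simpa using h1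
    exact (mul_dvd_mul_iff_left hN').mp h2
  cases i with
  | none =>
    cases i' with
    | none => rfl
    | some j' =>
      exfalso
      simp [repO, rep] at h
      exact hNp h
  | some j =>
    cases i' with
    | none =>
      exfalso
      simp [repO, rep] at h
      exact hNp h
    | some j' =>
      simp [repO, rep] at h
      have h1 : (N : ℤ) * p ∣ N * (N * ((j' : ℕ) - (j : ℕ) : ℤ)) := by
        have e : (N : ℤ) * (N * ((j' : ℕ) - (j : ℕ) : ℤ)) =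
            N * (N * ((j' : ℕ) : ℤ) + p * B.d) - (N * ((j : ℕ) : ℤ) + p * B.d) * N := by ring
        rw [e]; exact h
      have h2 : (p : ℤ) ∣ N * ((j' : ℕ) - (j : ℕ) : ℤ) := (mul_dvd_mul_iff_left hN').mp h1
      have h3 : (p : ℤ) ∣ ((j' : ℕ) - (j : ℕ) : ℤ) := by
        rcases (Nat.prime_iff_prime_int.mp hp).dvd_or_dvd h2 with h | h
        · exact absurd (Int.natCast_dvd_natCast.mp h) hpN
        · exact h
      have h4 : ((j' : ℕ) : ℤ) - (j : ℕ) = 0 := by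
        apply Int.eq_zero_of_abs_lt_dvd h3
        have := j.2
        have := j'.2
        rw [abs_lt]
        constructor <;> omega
      congr 1
      apply Fin.ext
      omega

/-! ## D. the Atkin-Lehner matrix -/

theorem Bez.hR (B : Bez N p) : (p : ℝ) * B.d - (N : ℝ) * B.b = 1 := by exact_mod_cast B.h

theorem wMat_det_aux (B : Bez N p) (hp : p ≠ 0) :
    (!![1, (B.b : ℝ) / p; (N : ℝ), (B.d : ℝ)] : Matrix (Fin 2) (Fin 2) ℝ).det = 1 / p := by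
  have hp' : (p : ℝ) ≠ 0 := by exact_mod_cast hp
  rw [Matrix.det_fin_two_of]
  field_simp
  linear_combination B.hR

/-- the Atkin-Lehner matrix `W' = [[1, b/p],[N, d]]` of determinant `1/p`. -/
def wMat (B : Bez N p) (hp : p ≠ 0) : GL (Fin 2) ℝ :=
  Matrix.GeneralLinearGroup.mkOfDetNeZero !![1, (B.b : ℝ) / p; (N : ℝ), (B.d : ℝ)] (by
    rw [wMat_det_aux B hp]
    have hp' : (p : ℝ) ≠ 0 := by exact_mod_cast hp
    positivity)

@[simp] theorem val_wMat (B : Bez N p) (hp : p ≠ 0) :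
    ((wMat B hp : GL (Fin 2) ℝ) : Matrix (Fin 2) (Fin 2) ℝ) =
      !![1, (B.b : ℝ) / p; (N : ℝ), (B.d : ℝ)] := rfl

theorem det_wMat_pos (B : Bez N p) (hp : p ≠ 0) : 0 < ((wMat B hp).det : ℝ) := by
  rw [Matrix.GeneralLinearGroup.val_det_apply, val_wMat, wMat_det_aux B hp]
  have hp' : (0 : ℝ) < p := by exact_mod_cast Nat.pos_of_ne_zero hp
  positivity

theorem wMat_mul_heckeMatrix (B : Bez N p) (hp : p ≠ 0) (j : ℕ) :
    wMat B hp * heckeMatrix p j = mapGL ℝ (rep B j) := by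
  have hp' : (p : ℝ) ≠ 0 := by exact_mod_cast hp
  apply Units.ext
  simp only [Units.val_mul, val_heckeMatrix hp, val_wMat]
  ext i k
  fin_cases i <;> fin_cases k <;>
    simp [Matrix.mul_apply, Fin.sum_univ_two, coe_rep] <;> try field_simp

theorem wMat_eq (B : Bez N p) (hp : p ≠ 0) :
    wMat B hp = mapGL ℝ (rep B 0) * (heckeMatrix p 0)⁻¹ := by
  rw [eq_mul_inv_iff_mul_eq]
  exact_mod_cast wMat_mul_heckeMatrix B hp 0

theorem wMat_intertwine (B : Bez N p) (hp : p ≠ 0) (γ : SL(2, ℤ)) (hγ : γ ∈ Gamma0 (N * p)) :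
    ∃ δ ∈ Gamma0 (N * p), wMat B hp * mapGL ℝ γ = mapGL ℝ δ * wMat B hp := by
  rw [Gamma0_mem, ZMod.intCast_zmod_eq_zero_iff_dvd] at hγ
  obtain ⟨c, hc⟩ := hγ
  have hdet : γ 0 0 * γ 1 1 - γ 0 1 * γ 1 0 = 1 := by
    have := γ.det_coe
    rwa [Matrix.det_fin_two] at this
  obtain ⟨X, hX⟩ : ∃ X : SL(2, ℤ),
      (X : Matrix (Fin 2) (Fin 2) ℤ) = !![γ 0 0, p * γ 0 1; N * c, γ 1 1] := by
    refine ⟨⟨!![γ 0 0, p * γ 0 1; N * c, γ 1 1], ?_⟩, rfl⟩
    rw [Matrix.det_fin_two_of]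
    rw [hc] at hdet
    push_cast at hdet
    linear_combination hdet
  have hXD : mapGL ℝ γ * heckeMatrix p 0 = heckeMatrix p 0 * mapGL ℝ X := by
    apply Units.ext
    simp only [Units.val_mul, val_heckeMatrix hp]
    ext i k
    fin_cases i <;> fin_cases k <;>
      simp [Matrix.mul_apply, Fin.sum_univ_two, hc, hX] <;> ring
  refine ⟨rep B 0 * X * (rep B 0)⁻¹, ?_, ?_⟩
  · rw [Gamma0_mem, ZMod.intCast_zmod_eq_zero_iff_dvd, mul_inv_one_zero]
    simp only [Matrix.SpecialLinearGroup.coe_mul, Matrix.mul_apply, Fin.sum_univ_two, hX]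
    simp [rep]
    refine ⟨(γ 0 0 + p * B.d * c) * B.d - N * γ 0 1 - B.d * γ 1 1, ?_⟩
    ring
  · rw [wMat_eq B hp, map_mul, map_mul, map_inv]
    have h1 : (heckeMatrix p 0)⁻¹ * mapGL ℝ γ = mapGL ℝ X * (heckeMatrix p 0)⁻¹ := by
      rw [inv_mul_eq_iff_eq_mul, ← mul_assoc, ← hXD, mul_inv_cancel_right]
    rw [mul_assoc, h1]
    group

/-- the Atkin-Lehner operator at `p` on `S₂(Γ₀(N p))`. -/
def wOp (B : Bez N p) (hp : p ≠ 0) :
    CuspForm (Gamma0 (N * p)) 2 →ₗ[ℂ] CuspForm (Gamma0 (N * p)) 2 :=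
  slashOp (wMat B hp) (det_wMat_pos B hp) (wMat_intertwine B hp)

@[simp] theorem coe_wOp (B : Bez N p) (hp : p ≠ 0) (g : CuspForm (Gamma0 (N * p)) 2) :
    ⇑(wOp B hp g) = ⇑g ∣[(2 : ℤ)] wMat B hp := rfl

theorem wMat_sq (B : Bez N p) (hp : p ≠ 0) :
    ∃ h ∈ Gamma0 (N * p), wMat B hp * wMat B hp =
      scalarGL (1 / p) (by have _hp' : (p : ℝ) ≠ 0 := by exact_mod_cast hp
                           positivity) * mapGL ℝ h := by
  have hp' : (p : ℝ) ≠ 0 := by exact_mod_cast hp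
  obtain ⟨h, hh⟩ : ∃ h : SL(2, ℤ), (h : Matrix (Fin 2) (Fin 2) ℤ) =
      !![p + B.b * N, B.b * (1 + B.d); N * p * (1 + B.d), N * B.b + p * B.d ^ 2] := by
    refine ⟨⟨!![p + B.b * N, B.b * (1 + B.d); N * p * (1 + B.d), N * B.b + p * B.d ^ 2], ?_⟩, rfl⟩
    rw [Matrix.det_fin_two_of]
    linear_combination ((p : ℤ) * B.d - N * B.b + 1) * B.h
  refine ⟨h, ?_, ?_⟩
  · rw [Gamma0_mem, ZMod.intCast_zmod_eq_zero_iff_dvd, hh]
    simp
  · apply Units.ext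
    simp only [Units.val_mul, val_wMat, scalarGL, val_upperTriangularGL]
    ext i k
    fin_cases i <;> fin_cases k <;>
      simp [Matrix.mul_apply, Fin.sum_univ_two, hh] <;> field_simp

theorem slash_mapGL_of_mem {M : ℕ} (g : CuspForm (Gamma0 M) 2) {h : SL(2, ℤ)} (hh : h ∈ Gamma0 M) :
    ⇑g ∣[(2 : ℤ)] mapGL ℝ h = ⇑g :=
  SlashInvariantFormClass.slash_action_eq g _ ⟨h, hh, rfl⟩

theorem wOp_wOp (B : Bez N p) (hp : p ≠ 0) (g : CuspForm (Gamma0 (N * p)) 2) :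
    wOp B hp (wOp B hp g) = g := by
  apply DFunLike.coe_injective
  obtain ⟨h, hh, e⟩ := wMat_sq B hp
  rw [coe_wOp, coe_wOp, ← SlashAction.slash_mul, e, SlashAction.slash_mul, slash_scalarGL _
    (by have hp' : (0 : ℝ) < p := by exact_mod_cast Nat.pos_of_ne_zero hp
        positivity), slash_mapGL_of_mem g hh]

/-! ## E. the trace formula -/

theorem add_heckeU_wOp (B : Bez N p) (hp : p ≠ 0) (g : CuspForm (Gamma0 (N * p)) 2) :
    ⇑g + heckeU 2 p ⇑(wOp B hp g) =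
      ∑ i : Option (Fin p), ⇑g ∣[(2 : ℤ)] mapGL ℝ (repO B i) := by
  rw [Fintype.sum_option, heckeU_def, Finset.sum_range]
  congr 1
  · simp only [repO, map_one, SlashAction.slash_one]
  · refine Finset.sum_congr rfl fun j _ => ?_
    rw [coe_wOp, ← SlashAction.slash_mul, wMat_mul_heckeMatrix]
    rfl

theorem trace_slash (hp : p.Prime) (hpN : ¬ p ∣ N) (hN : N ≠ 0) (B : Bez N p)
    (g : CuspForm (Gamma0 (N * p)) 2) (γ : GL (Fin 2) ℝ) (hγ : γ ∈ (Gamma0 N).map (mapGL ℝ)) :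
    (⇑g + heckeU 2 p ⇑(wOp B hp.ne_zero g)) ∣[(2 : ℤ)] γ =
      ⇑g + heckeU 2 p ⇑(wOp B hp.ne_zero g) := by
  obtain ⟨γ0, hγ0, rfl⟩ := hγ
  rw [add_heckeU_wOp]
  apply sum_slash_invariant ((Gamma0 (N * p)).map (mapGL ℝ))
  · rintro _ ⟨h, hh, rfl⟩
    exact slash_mapGL_of_mem g hh
  · intro i
    obtain ⟨i', hi'⟩ := exists_repO hp hpN B ((Gamma0 N).mul_mem (repO_mem B i) hγ0)
    exact ⟨i', _, hi', by simp⟩
  · intro i i' h
    apply repO_inj hp hpN hN B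
    rw [← map_inv, ← map_mul] at h
    exact (Subgroup.mem_map_iff_mem Matrix.SpecialLinearGroup.mapGL_injective).mp h

/-- the trace `S₂(N p) → S₂(N)`, `g ↦ g + U_p (g ∣ W)`. -/
def traceForm [NeZero N] (hp : p.Prime) (hpN : ¬ p ∣ N) (B : Bez N p)
    (g : CuspForm (Gamma0 (N * p)) 2) : CuspForm (Gamma0 N) 2 :=
  haveI : NeZero (N * p) := ⟨mul_ne_zero (NeZero.ne N) hp.ne_zero⟩
  { toFun := ⇑g + heckeU 2 p ⇑(wOp B hp.ne_zero g)
    slash_action_eq' := fun γ hγ => trace_slash hp hpN (NeZero.ne N) B g γ hγ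
    holo' := (g + CuspForm.heckeULin 2 (dvd_mul_left p N) (wOp B hp.ne_zero g)).holo'
    zero_at_cusps' := fun {c} hc =>
      (g + CuspForm.heckeULin 2 (dvd_mul_left p N) (wOp B hp.ne_zero g)).zero_at_cusps' (by
        rw [Subgroup.IsArithmetic.isCusp_iff_isCusp_SL2Z] at hc ⊢
        exact hc) }

theorem coe_traceForm [NeZero N] (hp : p.Prime) (hpN : ¬ p ∣ N) (B : Bez N p)
    (g : CuspForm (Gamma0 (N * p)) 2) :
    ⇑(traceForm hp hpN B g) = ⇑g + heckeU 2 p ⇑(wOp B hp.ne_zero g) := rfl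

/-! ## F. the old subspace -/

theorem diag_intertwine (N : ℕ) {p : ℕ} (hp : p ≠ 0) (γ : SL(2, ℤ)) (hγ : γ ∈ Gamma0 (N * p)) :
    ∃ δ ∈ Gamma0 N, heckeDiagMatrix p * mapGL ℝ γ = mapGL ℝ δ * heckeDiagMatrix p := by
  rw [Gamma0_mem, ZMod.intCast_zmod_eq_zero_iff_dvd] at hγ
  obtain ⟨c, hc⟩ := hγ
  have hdet : γ 0 0 * γ 1 1 - γ 0 1 * γ 1 0 = 1 := by
    have := γ.det_coe
    rwa [Matrix.det_fin_two] at this
  obtain ⟨X, hX⟩ : ∃ X : SL(2, ℤ),
      (X : Matrix (Fin 2) (Fin 2) ℤ) = !![γ 0 0, p * γ 0 1; N * c, γ 1 1] := by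
    refine ⟨⟨!![γ 0 0, p * γ 0 1; N * c, γ 1 1], ?_⟩, rfl⟩
    rw [Matrix.det_fin_two_of]
    rw [hc] at hdet
    push_cast at hdet
    linear_combination hdet
  refine ⟨X, ?_, ?_⟩
  · rw [Gamma0_mem, ZMod.intCast_zmod_eq_zero_iff_dvd, hX]
    simp
  · apply Units.ext
    simp only [Units.val_mul, val_heckeDiagMatrix hp]
    ext i k
    fin_cases i <;> fin_cases k <;>
      simp [Matrix.mul_apply, Fin.sum_univ_two, hc, hX] <;> ring

/-- `B_p : S₂(N) → S₂(N p)`, `f ↦ f ∣ diag(p,1)` (`= p f(p τ)`). -/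
def bOp (N : ℕ) {p : ℕ} (hp : p ≠ 0) :
    CuspForm (Gamma0 N) 2 →ₗ[ℂ] CuspForm (Gamma0 (N * p)) 2 :=
  slashOp (heckeDiagMatrix p) (det_heckeDiagMatrix_pos p) (diag_intertwine N hp)

@[simp] theorem coe_bOp (N : ℕ) {p : ℕ} (hp : p ≠ 0) (f : CuspForm (Gamma0 N) 2) :
    ⇑(bOp N hp f) = ⇑f ∣[(2 : ℤ)] heckeDiagMatrix p := rfl

/-- the inclusion `S₂(N) → S₂(N p)`. -/
abbrev iOp (N p : ℕ) : CuspForm (Gamma0 N) 2 →ₗ[ℂ] CuspForm (Gamma0 (N * p)) 2 :=
  GAL.cuspFormIncl (dvd_mul_right N p) 2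

/-- the `p`-old subspace of `S₂(N p)`. -/
def old (N : ℕ) {p : ℕ} (hp : p ≠ 0) : Submodule ℂ (CuspForm (Gamma0 (N * p)) 2) :=
  LinearMap.range (iOp N p) ⊔ LinearMap.range (bOp N hp)

theorem iOp_mem_old (N : ℕ) {p : ℕ} (hp : p ≠ 0) (f : CuspForm (Gamma0 N) 2) :
    iOp N p f ∈ old N hp := Submodule.mem_sup_left ⟨f, rfl⟩

theorem bOp_mem_old (N : ℕ) {p : ℕ} (hp : p ≠ 0) (f : CuspForm (Gamma0 N) 2) :
    bOp N hp f ∈ old N hp := Submodule.mem_sup_right ⟨f, rfl⟩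

theorem old_induction (N : ℕ) {p : ℕ} (hp : p ≠ 0)
    (L : CuspForm (Gamma0 (N * p)) 2 →ₗ[ℂ] CuspForm (Gamma0 (N * p)) 2)
    (h1 : ∀ f, L (iOp N p f) ∈ old N hp) (h2 : ∀ f, L (bOp N hp f) ∈ old N hp)
    {x : CuspForm (Gamma0 (N * p)) 2} (hx : x ∈ old N hp) : L x ∈ old N hp := by
  obtain ⟨y, ⟨f, rfl⟩, z, ⟨f', rfl⟩, rfl⟩ := Submodule.mem_sup.mp hx
  rw [map_add]
  exact (old N hp).add_mem (h1 f) (h2 f')

theorem exists_T (j : ℤ) : ∃ t : SL(2, ℤ), (t : Matrix (Fin 2) (Fin 2) ℤ) = !![1, j; 0, 1] :=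
  ⟨⟨!![1, j; 0, 1], by rw [Matrix.det_fin_two_of]; ring⟩, rfl⟩

theorem U_iOp [NeZero N] (hp : p.Prime) (hpN : ¬ p ∣ N) [NeZero (N * p)]
    (f : CuspForm (Gamma0 N) 2) :
    CuspForm.heckeULin 2 (dvd_mul_left p N) (iOp N p f) =
      iOp N p (CuspForm.heckeTLin 2 hp hpN f) - bOp N hp.ne_zero f := by
  apply DFunLike.coe_injective
  rw [CuspForm.coe_sub]
  simp only [CuspForm.coe_heckeULin_apply, GAL.coe_cuspFormIncl, CuspForm.coe_heckeTLin_apply,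
    coe_bOp, heckeT_eq_heckeU_add, add_sub_cancel_right]

theorem U_bOp [NeZero N] (hp : p ≠ 0) [NeZero (N * p)] (f : CuspForm (Gamma0 N) 2) :
    CuspForm.heckeULin 2 (dvd_mul_left p N) (bOp N hp f) = (p : ℂ) • iOp N p f := by
  apply DFunLike.coe_injective
  rw [CuspForm.IsGLPos.coe_smul]
  simp only [CuspForm.coe_heckeULin_apply, GAL.coe_cuspFormIncl, coe_bOp, heckeU_def]
  have hp' : (0 : ℝ) < p := by exact_mod_cast Nat.pos_of_ne_zero hp
  have key : ∀ j ∈ Finset.range p,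
      (⇑f ∣[(2 : ℤ)] heckeDiagMatrix p) ∣[(2 : ℤ)] heckeMatrix p j = ⇑f := by
    intro j _
    obtain ⟨t, ht⟩ := exists_T j
    have e : heckeDiagMatrix p * heckeMatrix p j = scalarGL p hp'.ne' * mapGL ℝ t := by
      apply Units.ext
      simp only [Units.val_mul, val_heckeDiagMatrix hp, val_heckeMatrix hp, scalarGL,
        val_upperTriangularGL]
      ext i k
      fin_cases i <;> fin_cases k <;>
        simp [Matrix.mul_apply, Fin.sum_univ_two, ht]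
    rw [← SlashAction.slash_mul, e, SlashAction.slash_mul, slash_scalarGL _ hp']
    apply slash_mapGL_of_mem
    rw [Gamma0_mem, ht]
    simp
  rw [Finset.sum_congr rfl key, Finset.sum_const, Finset.card_range]
  ext τ
  simp

theorem U_old [NeZero N] (hp : p.Prime) (hpN : ¬ p ∣ N) [NeZero (N * p)]
    {x : CuspForm (Gamma0 (N * p)) 2} (hx : x ∈ old N hp.ne_zero) :
    CuspForm.heckeULin 2 (dvd_mul_left p N) x ∈ old N hp.ne_zero := by
  refine old_induction N hp.ne_zero _ (fun f => ?_) (fun f => ?_) hx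
  · rw [U_iOp hp hpN]
    exact (old N hp.ne_zero).sub_mem (iOp_mem_old _ _ _) (bOp_mem_old _ _ _)
  · rw [U_bOp hp.ne_zero]
    exact (old N hp.ne_zero).smul_mem _ (iOp_mem_old _ _ _)

/-! ## G. `U_p² = 1` modulo old -/

theorem add_U_wOp_mem_old [NeZero N] (hp : p.Prime) (hpN : ¬ p ∣ N) [NeZero (N * p)] (B : Bez N p)
    (g : CuspForm (Gamma0 (N * p)) 2) :
    g + CuspForm.heckeULin 2 (dvd_mul_left p N) (wOp B hp.ne_zero g) ∈ old N hp.ne_zero := by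
  have : g + CuspForm.heckeULin 2 (dvd_mul_left p N) (wOp B hp.ne_zero g) =
      iOp N p (traceForm hp hpN B g) := by
    apply DFunLike.coe_injective
    rfl
  rw [this]
  exact iOp_mem_old _ _ _

/-- **`U_p² = 1` on `S₂(N p) / old`.** -/
theorem U_sq_sub_mem_old [NeZero N] (hp : p.Prime) (hpN : ¬ p ∣ N) [NeZero (N * p)]
    (g : CuspForm (Gamma0 (N * p)) 2) :
    CuspForm.heckeULin 2 (dvd_mul_left p N) (CuspForm.heckeULin 2 (dvd_mul_left p N) g) - g ∈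
      old N hp.ne_zero := by
  obtain ⟨B⟩ := exists_bez hp hpN
  set U := CuspForm.heckeULin (N := N * p) 2 (dvd_mul_left p N) with hU
  set w := wOp B hp.ne_zero with hw
  have h1 : g + U (w g) ∈ old N hp.ne_zero := add_U_wOp_mem_old hp hpN B g
  have h2 : w g + U g ∈ old N hp.ne_zero := by
    have := add_U_wOp_mem_old hp hpN B (w g)
    rwa [← hw, ← hU, hw, wOp_wOp, ← hw] at this
  have h3 : U (w g + U g) ∈ old N hp.ne_zero := U_old hp hpN h2
  have e : U (U g) - g = U (w g + U g) - (g + U (w g)) := by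
    rw [map_add]; abel
  rw [e]
  exact (old N hp.ne_zero).sub_mem h3 h1

end Fermat.Agent.S41.Forms
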