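import Fermat.Agent.S41.Forms.Alg
import Fermat.Agent.S41.Forms.Trace
import Fermat.Agent.MR.Glue.Out
import Fermat.Prelude.Def_FreyPackage_LevelRaising

/-!
# S41 / FORMS : from a proper ideal containing the annihilator of `S / old` to a normalised eigenform, new at `q`

* `Top_exists_normalized` : a simultaneous eigenvector of the full Hecke algebra can be normalised (keeping the character);
* `forms_of_ideal` : `Ψ : C → heckeAlgebra (N * q) 2 ∅`, `I` a proper ideal of `C` containing every `c` such that `Ψ c` maps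
  `S₂(N q)` into `old`.  Then there is a normalised eigenform `g` of level `N q` with character `χ'`, `a_q(g)² = 1`, and a maximal ideal
  `𝔪'` of `ℤ̄` with `χ' (Ψ I) ⊆ 𝔪'`.
-/

set_option autoImplicit false

namespace Fermat.Agent.S41.Forms

open CuspForm CongruenceSubgroup ModularFormClass Fermat.Agent.S49

/-- A simultaneous eigenvector of the full Hecke algebra can be normalised (copy of `S49.exists_normalized_of_eigenvector`,
keeping the information that `g` is an eigenvector with the same character). -/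
theorem Top_exists_normalized {n : ℕ} [NeZero n] (v : CuspForm (Gamma0 n) 2)
    (hv : v ≠ 0) (χ : heckeAlgebra n 2 ∅ →+* ℂ) (hev : ∀ t : heckeAlgebra n 2 ∅, t.1 v = χ t • v) :
    ∃ g : CuspForm (Gamma0 n) 2, g.IsNormalizedEigenform ∧
      ∀ t : heckeAlgebra n 2 ∅, t.1 g = χ t • g := by
  classical
  let e : ℕ → ℂ := fun ℓ => if ℓ ∣ n then 0 else (ℓ : ℂ)
  have hrel : ∀ (w : CuspForm (Gamma0 n) 2) (_ : ∀ t : heckeAlgebra n 2 ∅, t.1 w = χ t • w)
      (ℓ : ℕ) (_ : ℓ.Prime), ∃ c : ℂ, ∀ m : ℕ,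
      qCoeff w (ℓ * m) + e ℓ * (if ℓ ∣ m then qCoeff w (m / ℓ) else 0) = c * qCoeff w m := by
    intro w hw ℓ hℓ
    by_cases hℓN : ℓ ∣ n
    · refine ⟨χ (heckeAlgebra.U hℓ hℓN (Set.notMem_empty ℓ)), fun m => ?_⟩
      have h1 := hw (heckeAlgebra.U hℓ hℓN (Set.notMem_empty ℓ))
      rw [heckeAlgebra.coe_U] at h1
      have h2 := qc_U hℓ hℓN w m
      rw [h1, qc_smul] at h2
      simp only [e, if_pos hℓN, zero_mul, add_zero]
      exact h2.symm
    · refine ⟨χ (heckeAlgebra.T hℓ hℓN (Set.notMem_empty ℓ)), fun m => ?_⟩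
      have h1 := hw (heckeAlgebra.T hℓ hℓN (Set.notMem_empty ℓ))
      rw [heckeAlgebra.coe_T] at h1
      have h2 := qc_T hℓ hℓN w m
      rw [h1, qc_smul] at h2
      simp only [e, if_neg hℓN]
      exact h2.symm
  have hb1 : qCoeff v 1 ≠ 0 := by
    intro h1
    apply hv
    apply qc_ext
    intro m
    rcases Nat.eq_zero_or_pos m with rfl | hm
    · exact qc_zero v
    · exact eig_vanish (e := e) (fun ℓ hℓ => hrel v hev ℓ hℓ) h1 m hm
  let g : CuspForm (Gamma0 n) 2 := (qCoeff v 1)⁻¹ • v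
  have hg : ∀ t : heckeAlgebra n 2 ∅, t.1 g = χ t • g := by
    intro t
    simp only [g]
    rw [map_smul, hev, smul_comm]
  have hg1 : qCoeff g 1 = 1 := by
    simp only [g]
    rw [qc_smul, inv_mul_cancel₀ hb1]
  have hgℓ : ∀ (ℓ : ℕ) (_ : ℓ.Prime), ∀ c : ℂ, (∀ m : ℕ,
      qCoeff g (ℓ * m) + e ℓ * (if ℓ ∣ m then qCoeff g (m / ℓ) else 0) = c * qCoeff g m) →
      c = qCoeff g ℓ := by
    intro ℓ hℓ c hc
    have h1 := hc 1
    have h2 : ¬ ℓ ∣ 1 := fun h => hℓ.one_lt.ne' (Nat.dvd_one.mp h)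
    rw [if_neg h2, mul_zero, add_zero, mul_one, hg1, mul_one] at h1
    exact h1.symm
  have heig : FormalHecke.IsEigensystem e (fun m => qCoeff g m) := by
    refine ⟨hg1, fun ℓ hℓ m => ?_⟩
    obtain ⟨c, hc⟩ := hrel g hg ℓ hℓ
    have := hgℓ ℓ hℓ c hc
    show qCoeff g (ℓ * m) + e ℓ * (if ℓ ∣ m then qCoeff g (m / ℓ) else 0)
      = qCoeff g ℓ * qCoeff g m
    rw [← this]
    exact hc m
  refine ⟨g, ⟨hg1, eig_mul_of_coprime heig, ?_, ?_⟩, hg⟩
  · intro p r hp hpN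
    have := eig_prime_pow heig hp r
    simpa only [e, if_neg hpN] using this
  · intro p r hp hpN
    have := eig_prime_pow heig hp r
    simpa only [e, if_pos hpN, zero_mul, sub_zero] using this

/-- the coefficient `a_ℓ`, `ℓ ∤ n`, of a normalised eigenvector. -/
theorem Top_qCoeff_T {n : ℕ} [NeZero n] {g : CuspForm (Gamma0 n) 2} (hg1 : qCoeff g 1 = 1)
    {χ : heckeAlgebra n 2 ∅ →+* ℂ} (hg : ∀ t : heckeAlgebra n 2 ∅, t.1 g = χ t • g)
    {ℓ : ℕ} (hℓ : ℓ.Prime) (hℓN : ¬ ℓ ∣ n) :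
    qCoeff g ℓ = χ (heckeAlgebra.T hℓ hℓN (Set.notMem_empty ℓ)) := by
  have h1 := hg (heckeAlgebra.T hℓ hℓN (Set.notMem_empty ℓ))
  rw [heckeAlgebra.coe_T] at h1
  have h2 := qc_T hℓ hℓN g 1
  have h3 : ¬ ℓ ∣ 1 := fun h => hℓ.one_lt.ne' (Nat.dvd_one.mp h)
  rw [h1, qc_smul, hg1, mul_one, mul_one, if_neg h3, mul_zero, add_zero] at h2
  exact h2.symm

/-- the coefficient `a_ℓ`, `ℓ ∣ n`, of a normalised eigenvector. -/
theorem Top_qCoeff_U {n : ℕ} [NeZero n] {g : CuspForm (Gamma0 n) 2} (hg1 : qCoeff g 1 = 1)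
    {χ : heckeAlgebra n 2 ∅ →+* ℂ} (hg : ∀ t : heckeAlgebra n 2 ∅, t.1 g = χ t • g)
    {ℓ : ℕ} (hℓ : ℓ.Prime) (hℓN : ℓ ∣ n) :
    qCoeff g ℓ = χ (heckeAlgebra.U hℓ hℓN (Set.notMem_empty ℓ)) := by
  have h1 := hg (heckeAlgebra.U hℓ hℓN (Set.notMem_empty ℓ))
  rw [heckeAlgebra.coe_U] at h1
  have h2 := qc_U hℓ hℓN g 1
  rw [h1, qc_smul, hg1, mul_one, mul_one] at h2
  exact h2.symm

/-- a subspace stable under the generators is stable under the Hecke algebra. -/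
theorem Top_stable_of_generators {n : ℕ} [NeZero n] (O : Submodule ℂ (CuspForm (Gamma0 n) 2))
    (hO : ∀ T ∈ heckeGenerators n 2 ∅, ∀ f ∈ O, T f ∈ O)
    (t : Module.End ℂ (CuspForm (Gamma0 n) 2)) (ht : t ∈ heckeAlgebra n 2 ∅) :
    ∀ f ∈ O, t f ∈ O := by
  rw [heckeAlgebra] at ht
  induction ht using Algebra.adjoin_induction with
  | mem x hx => exact hO x hx
  | algebraMap r =>
    intro f hf
    rw [Module.algebraMap_end_apply]
    exact O.smul_of_tower_mem r hf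
  | add x y _ _ hx hy =>
    intro f hf
    rw [LinearMap.add_apply]
    exact O.add_mem (hx f hf) (hy f hf)
  | mul x y _ _ hx hy =>
    intro f hf
    rw [Module.End.mul_apply]
    exact hx _ (hy f hf)

/-- **FORMS, ideal form.** -/
theorem forms_of_ideal {N q : ℕ} [NeZero N] [NeZero (N * q)] (hq : q.Prime) (hqN : ¬ q ∣ N)
    (hstab : ∀ T ∈ heckeGenerators (N * q) 2 ∅, ∀ f ∈ old N hq.ne_zero, T f ∈ old N hq.ne_zero)
    {C : Type*} [CommRing C] (Ψ : C →+* heckeAlgebra (N * q) 2 ∅) (I : Ideal C) (hI : I ≠ ⊤)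
    (hIU : ∀ c : C, (∀ f, (Ψ c).1 f ∈ old N hq.ne_zero) → c ∈ I) :
    ∃ (g : CuspForm (Gamma0 (N * q)) 2) (χ' : heckeAlgebra (N * q) 2 ∅ →+* integralClosure ℤ ℂ)
      (𝔪' : Ideal (integralClosure ℤ ℂ)),
      g.IsNormalizedEigenform ∧ 𝔪'.IsMaximal ∧ (∀ c ∈ I, χ' (Ψ c) ∈ 𝔪') ∧
      (∀ (ℓ : ℕ) (hℓ : ℓ.Prime) (hℓN : ¬ ℓ ∣ N * q), qCoeff g ℓ =
        ((χ' (heckeAlgebra.T hℓ hℓN (Set.notMem_empty ℓ)) : integralClosure ℤ ℂ) : ℂ)) ∧
      g.IsNewAt q := by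
  have h := MR.Glue.hasIntegralBasis (N * q)
  have hint : Algebra.IsIntegral ℤ (heckeAlgebra (N * q) 2 ∅) := heckeAlgebra_isIntegral h
  have hfd : FiniteDimensional ℂ (CuspForm (Gamma0 (N * q)) 2) :=
    finiteDimensional_of_hasIntegralBasis h
  obtain ⟨v, χ', 𝔪', hv0, hev, hkill, h𝔪', hI'⟩ := exists_eigenvector_mod
    ((heckeAlgebra (N * q) 2 ∅).val :
      heckeAlgebra (N * q) 2 ∅ →+* Module.End ℂ (CuspForm (Gamma0 (N * q)) 2))
    Subtype.val_injective (old N hq.ne_zero)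
    (fun t u hu => Top_stable_of_generators _ hstab t.1 t.2 u hu) Ψ I hI hIU
  let χ : heckeAlgebra (N * q) 2 ∅ →+* ℂ := (algebraMap (integralClosure ℤ ℂ) ℂ).comp χ'
  have hχ : ∀ t, χ t = ((χ' t : integralClosure ℤ ℂ) : ℂ) := fun _ => rfl
  obtain ⟨g, hg, hgχ⟩ := Top_exists_normalized v hv0 χ (fun t => hev t)
  refine ⟨g, χ', 𝔪', hg, h𝔪', hI', fun ℓ hℓ hℓN => ?_, ?_⟩
  · rw [← hχ]
    exact Top_qCoeff_T hg.qCoeff_one hgχ hℓ hℓN
  · have hqd : q ∣ N * q := dvd_mul_left q N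
    have h1 := hkill (heckeAlgebra.U hq hqd (Set.notMem_empty q) *
      heckeAlgebra.U hq hqd (Set.notMem_empty q) - 1) (fun f => U_sq_sub_mem_old hq hqN f)
    rw [map_sub, map_mul, map_one, sub_eq_zero] at h1
    show qCoeff g q ^ 2 = 1
    rw [Top_qCoeff_U hg.qCoeff_one hgχ hq hqd, hχ, sq]
    have h2 := congrArg (fun z : integralClosure ℤ ℂ => (z : ℂ)) h1
    simpa using h2

end Fermat.Agent.S41.Forms
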