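import Fermat.Agent.S41.Contracts
import Fermat.Agent.S41.Forms.Top
import Fermat.Agent.S41.Forms.OldStable

/-!
# S41 / FORMS : `formsC : S41.FormsC`  (`Lat → Concl`)

`C = MvPolynomial ℕ ℤ`, `Ψ X_ℓ = T_ℓ` (`ℓ ∈ Pr`), `I = ker (X_ℓ ↦ θ(ℓ))`; `forms_of_ideal`.
-/

set_option autoImplicit false

noncomputable section

namespace Fermat.Agent.S41.Forms

open CuspForm CongruenceSubgroup ModularFormClass

theorem Final_oldSub_eq (N : ℕ) {q : ℕ} (hq : q ≠ 0) : oldSub N q = old N hq := by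
  ext h
  constructor
  · rintro ⟨f₁, f₂, hh⟩
    have : h = iOp N q f₁ + bOp N hq f₂ := by
      apply DFunLike.coe_injective
      rw [hh, CuspForm.coe_add, coe_bOp]
      rfl
    rw [this]
    exact (old N hq).add_mem (iOp_mem_old N hq f₁) (bOp_mem_old N hq f₂)
  · intro hh
    obtain ⟨y, ⟨f₁, rfl⟩, z, ⟨f₂, rfl⟩, rfl⟩ := Submodule.mem_sup.mp hh
    refine ⟨f₁, f₂, ?_⟩
    rw [CuspForm.coe_add, coe_bOp]
    rfl

open Classical in
/-- `T_ℓ` in the full Hecke algebra for `ℓ ∈ Pr W M p` (and `0` otherwise). -/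
def Final_TA (W : WeierstrassCurve ℤ) (p M : ℕ) [NeZero M] (ℓ : ℕ) : heckeAlgebra M 2 ∅ :=
  if h : Pr W M p ℓ then heckeAlgebra.T h.1 h.2.2.1 (Set.notMem_empty ℓ) else 0

theorem Final_coe_TA (W : WeierstrassCurve ℤ) (p M : ℕ) [NeZero M] (ℓ : ℕ) :
    (Final_TA W p M ℓ).1 = TS W p M ℓ := by
  unfold Final_TA TS
  split_ifs <;> rfl

theorem Final_lift_surjective :
    Function.Surjective (FreeAlgebra.lift ℤ (MvPolynomial.X : ℕ → MvPolynomial ℕ ℤ)) := by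
  intro c
  induction c using MvPolynomial.induction_on with
  | C a => exact ⟨algebraMap ℤ _ a, by rw [AlgHom.commutes]; rfl⟩
  | add a b ha hb =>
    obtain ⟨x, rfl⟩ := ha
    obtain ⟨y, rfl⟩ := hb
    exact ⟨x + y, map_add _ _ _⟩
  | mul_X a n ha =>
    obtain ⟨x, rfl⟩ := ha
    exact ⟨x * FreeAlgebra.ι ℤ n, by rw [map_mul, FreeAlgebra.lift_ι_apply]⟩

theorem formsC : FormsC := by
  intro W p N q _ _ hp hq hqN hLat
  have : NeZero (N * q) := ⟨Nat.mul_ne_zero (NeZero.ne N) (NeZero.ne q)⟩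
  have : Fact p.Prime := ⟨hp⟩
  let Ψ : MvPolynomial ℕ ℤ →ₐ[ℤ] heckeAlgebra (N * q) 2 ∅ :=
    MvPolynomial.aeval (Final_TA W p (N * q))
  let Θ : MvPolynomial ℕ ℤ →ₐ[ℤ] ZMod p := MvPolynomial.aeval (th W p (N * q))
  let π : FreeAlgebra ℤ ℕ →ₐ[ℤ] MvPolynomial ℕ ℤ := FreeAlgebra.lift ℤ MvPolynomial.X
  have h1 : ((heckeAlgebra (N * q) 2 ∅).val.comp Ψ).comp π = FreeAlgebra.lift ℤ (TS W p (N * q)) := by
    apply FreeAlgebra.hom_ext
    funext ℓ
    simp only [Function.comp_apply, AlgHom.comp_apply, π, Ψ, FreeAlgebra.lift_ι_apply,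
      MvPolynomial.aeval_X]
    exact Final_coe_TA W p (N * q) ℓ
  have h2 : Θ.comp π = FreeAlgebra.lift ℤ (th W p (N * q)) := by
    apply FreeAlgebra.hom_ext
    funext ℓ
    simp only [Function.comp_apply, AlgHom.comp_apply, π, Θ, FreeAlgebra.lift_ι_apply,
      MvPolynomial.aeval_X]
  let I : Ideal (MvPolynomial ℕ ℤ) := RingHom.ker (Θ : MvPolynomial ℕ ℤ →+* ZMod p)
  have hmemI : ∀ c, c ∈ I ↔ Θ c = 0 := fun c => Iff.rfl
  have hI : I ≠ ⊤ := by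
    intro h
    have : (1 : MvPolynomial ℕ ℤ) ∈ I := by rw [h]; trivial
    rw [hmemI, map_one] at this
    exact one_ne_zero this
  have hIU : ∀ c : MvPolynomial ℕ ℤ,
      (∀ f, ((Ψ : MvPolynomial ℕ ℤ →+* heckeAlgebra (N * q) 2 ∅) c).1 f ∈ old N hq.ne_zero) →
        c ∈ I := by
    intro c hc
    obtain ⟨P, rfl⟩ := Final_lift_surjective c
    rw [hmemI]
    have h3 := hLat P (by
      intro h
      rw [Final_oldSub_eq N hq.ne_zero, ← h1]
      exact hc h)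
    rw [← h2] at h3
    exact h3
  obtain ⟨g, χ', 𝔪', hg, h𝔪', hI', hT, hnew⟩ := forms_of_ideal hq hqN (old_stable hq hqN ∅)
    (Ψ : MvPolynomial ℕ ℤ →+* heckeAlgebra (N * q) 2 ∅) I hI hIU
  refine ⟨g, 𝔪', hg, h𝔪', ?_, ?_, hnew⟩
  · have h3 := hI' (MvPolynomial.C (p : ℤ)) (by
      rw [hmemI]
      show MvPolynomial.aeval (th W p (N * q)) (MvPolynomial.C (p : ℤ)) = 0
      rw [MvPolynomial.aeval_C]
      simp)
    have h4 : (Ψ : MvPolynomial ℕ ℤ →+* heckeAlgebra (N * q) 2 ∅) (MvPolynomial.C (p : ℤ)) =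
        ((p : ℤ) : heckeAlgebra (N * q) 2 ∅) := by
      show MvPolynomial.aeval (Final_TA W p (N * q)) (MvPolynomial.C (p : ℤ)) = _
      rw [MvPolynomial.aeval_C]
      simp
    rw [h4, map_intCast] at h3
    exact_mod_cast h3
  · intro ℓ hℓ hgood hℓN hℓp
    have hPr : Pr W (N * q) p ℓ := ⟨hℓ, hgood, hℓN, hℓp⟩
    refine ⟨χ' (heckeAlgebra.T hℓ hℓN (Set.notMem_empty ℓ)), (hT ℓ hℓ hℓN).symm, ?_⟩
    have h3 := hI' (MvPolynomial.X ℓ - MvPolynomial.C (W.apOfModel ℓ)) (by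
      rw [hmemI]
      show MvPolynomial.aeval (th W p (N * q))
        (MvPolynomial.X ℓ - MvPolynomial.C (W.apOfModel ℓ)) = 0
      rw [map_sub, MvPolynomial.aeval_X, MvPolynomial.aeval_C, th, if_pos hPr]
      simp)
    have h4 : (Ψ : MvPolynomial ℕ ℤ →+* heckeAlgebra (N * q) 2 ∅)
        (MvPolynomial.X ℓ - MvPolynomial.C (W.apOfModel ℓ)) =
        heckeAlgebra.T hℓ hℓN (Set.notMem_empty ℓ) -
          ((W.apOfModel ℓ : ℤ) : heckeAlgebra (N * q) 2 ∅) := by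
      show MvPolynomial.aeval (Final_TA W p (N * q))
        (MvPolynomial.X ℓ - MvPolynomial.C (W.apOfModel ℓ)) = _
      rw [map_sub, MvPolynomial.aeval_X, MvPolynomial.aeval_C, Final_TA, dif_pos hPr]
      simp
    rw [h4, map_sub, map_intCast] at h3
    exact h3

end Fermat.Agent.S41.Forms
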