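import Mathlib
import Fermat.Agent.S49.Eigen

/-!
# S41 / FORMS : abstract two-step Deligne--Serre lemma

`R` a commutative ring, integral over `ℤ`, acting faithfully on a finite dimensional complex vector space `V`; `U ⊆ V` a stable
subspace; `Ψ : C → R` a ring homomorphism and `I` a proper ideal of `C` containing every `c` with `Ψ c • V ⊆ U`.
Then there is an eigenvector `v ∈ V` of `R` whose character `χ` kills `{t : t V ⊆ U}` (so "`χ` occurs in `V / U`") and a maximal ideal
`𝔪'` of `ℤ̄` with `χ (Ψ I) ⊆ 𝔪'`.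

PROOF. `S49.exists_eigenvector_of_prime` on `V / U` for `R / J`, `J = {t : t V ⊆ U}`, at a maximal ideal above `I` (lying over);
this gives a character `χbar` of `R / J`; then `S49.exists_eigenvector_of_prime` on `V` at the prime `ker χbar`, which gives `χ` with
`ker χ ≤ ker χbar`; both lie above `(0) ⊆ ℤ`, hence they are equal (incomparability).
-/

set_option autoImplicit false

namespace Fermat.Agent.S41.Forms

open Fermat.Agent.S49

theorem exists_eigenvector_mod {V : Type*} [AddCommGroup V] [Module ℂ V] [FiniteDimensional ℂ V]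
    {R : Type*} [CommRing R] [Algebra.IsIntegral ℤ R]
    (ρ : R →+* Module.End ℂ V) (hρ : Function.Injective ρ)
    (U : Submodule ℂ V) (hU : ∀ t : R, ∀ u ∈ U, ρ t u ∈ U)
    {C : Type*} [CommRing C] (Ψ : C →+* R) (I : Ideal C) (hI : I ≠ ⊤)
    (hIU : ∀ c : C, (∀ v, ρ (Ψ c) v ∈ U) → c ∈ I) :
    ∃ (v : V) (χ : R →+* integralClosure ℤ ℂ) (𝔪' : Ideal (integralClosure ℤ ℂ)),
      v ≠ 0 ∧ (∀ t, ρ t v = ((χ t : integralClosure ℤ ℂ) : ℂ) • v) ∧
      (∀ t, (∀ v, ρ t v ∈ U) → χ t = 0) ∧ 𝔪'.IsMaximal ∧ ∀ c ∈ I, χ (Ψ c) ∈ 𝔪' := by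
  classical
  let J : Ideal R :=
    { carrier := {t | ∀ v, ρ t v ∈ U}
      add_mem' := fun {s t} hs ht v => by
        rw [map_add]
        exact U.add_mem (hs v) (ht v)
      zero_mem' := fun v => by
        rw [map_zero]
        exact U.zero_mem
      smul_mem' := fun s t ht v => by
        rw [smul_eq_mul, map_mul]
        exact hU s _ (ht v) }
  have hJ : ∀ t, t ∈ J ↔ ∀ v, ρ t v ∈ U := fun t => Iff.rfl
  let ρ0 : R →+* Module.End ℂ (V ⧸ U) :=
    { toFun := fun t => U.mapQ U (ρ t) (fun u hu => hU t u hu)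
      map_one' := by
        refine LinearMap.ext fun x => ?_
        induction x using Submodule.Quotient.induction_on with
        | _ x => rw [Submodule.mapQ_apply, map_one]; rfl
      map_mul' := fun s t => by
        refine LinearMap.ext fun x => ?_
        induction x using Submodule.Quotient.induction_on with
        | _ x => rw [Submodule.mapQ_apply, map_mul]; rfl
      map_zero' := by
        refine LinearMap.ext fun x => ?_
        induction x using Submodule.Quotient.induction_on with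
        | _ x => rw [Submodule.mapQ_apply, map_zero]; rfl
      map_add' := fun s t => by
        refine LinearMap.ext fun x => ?_
        induction x using Submodule.Quotient.induction_on with
        | _ x => rw [Submodule.mapQ_apply, map_add]; rfl }
  have hρ0 : ∀ t v, ρ0 t (Submodule.Quotient.mk v) = Submodule.Quotient.mk (ρ t v) := fun _ _ => rfl
  have hρ0J : ∀ t ∈ J, ρ0 t = 0 := by
    intro t ht
    refine LinearMap.ext fun x => ?_
    induction x using Submodule.Quotient.induction_on with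
    | _ x =>
      rw [hρ0, LinearMap.zero_apply, Submodule.Quotient.mk_eq_zero]
      exact ht x
  have hker0 : RingHom.ker ρ0 ≤ J := by
    intro t ht v
    rw [RingHom.mem_ker] at ht
    rw [← Submodule.Quotient.mk_eq_zero, ← hρ0, ht, LinearMap.zero_apply]
  let ρb : R ⧸ J →+* Module.End ℂ (V ⧸ U) := Ideal.Quotient.lift J ρ0 hρ0J
  have hρb : Function.Injective ρb := RingHom.lift_injective_of_ker_le_ideal J hρ0J hker0
  obtain ⟨𝔫, h𝔫, hle0⟩ := Ideal.exists_le_maximal I hI
  let _ : Algebra C (R ⧸ J) := ((Ideal.Quotient.mk J).comp Ψ).toAlgebra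
  have hintC : Algebra.IsIntegral C (R ⧸ J) :=
    ⟨fun x => (Algebra.IsIntegral.isIntegral (R := ℤ) x).tower_top⟩
  have hkerC : RingHom.ker (algebraMap C (R ⧸ J)) ≤ 𝔫 := by
    intro c hc
    rw [RingHom.mem_ker] at hc
    have h1 : Ideal.Quotient.mk J (Ψ c) = 0 := hc
    rw [Ideal.Quotient.eq_zero_iff_mem] at h1
    exact hle0 (hIU c h1)
  obtain ⟨𝔐b, h𝔐b, hcomapC⟩ := Ideal.exists_ideal_over_maximal_of_isIntegral 𝔫 hkerC
  have h𝔐bp : 𝔐b.IsPrime := h𝔐b.isPrime
  obtain ⟨-, χb, -, -, hkerb⟩ := exists_eigenvector_of_prime ρb hρb 𝔐b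
  let 𝔓 : Ideal R := RingHom.ker (χb.comp (Ideal.Quotient.mk J))
  have h𝔓 : 𝔓.IsPrime := RingHom.ker_isPrime _
  have hmem𝔓 : ∀ t, t ∈ 𝔓 ↔ χb (Ideal.Quotient.mk J t) = 0 := fun t => Iff.rfl
  obtain ⟨v, χ, hv0, hev, hker⟩ := exists_eigenvector_of_prime ρ hρ 𝔓
  have hχp : (RingHom.ker χ).IsPrime := RingHom.ker_isPrime _
  have heq : RingHom.ker χ = 𝔓 := by
    by_contra hne
    have hlt := Ideal.IsIntegral.comap_lt_comap (R := ℤ) (lt_of_le_of_ne hker hne)
    have hbot : 𝔓.comap (algebraMap ℤ R) = ⊥ := by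
      rw [eq_bot_iff]
      intro n hn
      rw [Ideal.mem_comap, hmem𝔓] at hn
      have h1 : χb (Ideal.Quotient.mk J (algebraMap ℤ R n)) = (n : ℂ) := by simp
      rw [hn] at h1
      simpa using h1.symm
    rw [hbot] at hlt
    exact not_lt_bot hlt
  let χ' : R →+* integralClosure ℤ ℂ :=
    χ.codRestrict (integralClosure ℤ ℂ)
      (fun t => map_isIntegral_int χ (Algebra.IsIntegral.isIntegral t))
  have hχ' : ∀ t, ((χ' t : integralClosure ℤ ℂ) : ℂ) = χ t := fun _ => rfl
  let 𝔐 : Ideal R := 𝔐b.comap (Ideal.Quotient.mk J)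
  have h𝔐 : 𝔐.IsMaximal := Ideal.comap_isMaximal_of_surjective _ Ideal.Quotient.mk_surjective
  let _ : Algebra R (integralClosure ℤ ℂ) := χ'.toAlgebra
  have hint' : Algebra.IsIntegral R (integralClosure ℤ ℂ) :=
    ⟨fun x => (Algebra.IsIntegral.isIntegral (R := ℤ) x).tower_top⟩
  have hker' : RingHom.ker (algebraMap R (integralClosure ℤ ℂ)) ≤ 𝔐 := by
    intro t ht
    rw [RingHom.mem_ker] at ht
    have h1 : χ' t = 0 := ht
    have h2 : t ∈ RingHom.ker χ := by
      rw [RingHom.mem_ker, ← hχ', h1]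
      rfl
    rw [heq, hmem𝔓] at h2
    exact hkerb h2
  obtain ⟨𝔪', h𝔪', hcomap⟩ := Ideal.exists_ideal_over_maximal_of_isIntegral 𝔐 hker'
  refine ⟨v, χ', 𝔪', hv0, fun t => by rw [hχ', hev], ?_, h𝔪', ?_⟩
  · intro t ht
    have h1 : t ∈ 𝔓 := by
      rw [hmem𝔓, Ideal.Quotient.eq_zero_iff_mem.mpr ((hJ t).mpr ht), map_zero]
    rw [← heq, RingHom.mem_ker] at h1
    apply Subtype.ext
    rw [hχ', h1]
    rfl
  · intro c hc
    have h1 : c ∈ Ideal.comap (algebraMap C (R ⧸ J)) 𝔐b := by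
      rw [hcomapC]
      exact hle0 hc
    have h2 : Ψ c ∈ 𝔐 := h1
    have h3 : Ψ c ∈ Ideal.comap (algebraMap R (integralClosure ℤ ℂ)) 𝔪' := by
      rw [hcomap]
      exact h2
    exact h3

end Fermat.Agent.S41.Forms
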