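import Fermat.Agent.S41.Defs
import Fermat.Agent.S41.Forms.OldStable

/-!
# S41 / FORMS : `S41.oldSub = Forms.old`
-/

set_option autoImplicit false

open UpperHalfPlane ModularForm CongruenceSubgroup
open scoped MatrixGroups ModularForm

noncomputable section

namespace Fermat.Agent.S41.Forms

theorem oldSub_eq_old (N : ℕ) {p : ℕ} (hp : p ≠ 0) : oldSub N p = old N hp := by
  apply le_antisymm
  · rintro h ⟨f₁, f₂, e⟩
    have : h = iOp N p f₁ + bOp N hp f₂ := DFunLike.coe_injective e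
    rw [this]
    exact (old N hp).add_mem (iOp_mem_old _ _ _) (bOp_mem_old _ _ _)
  · intro h hh
    obtain ⟨y, ⟨f, rfl⟩, z, ⟨f', rfl⟩, rfl⟩ := Submodule.mem_sup.mp hh
    exact ⟨f, f', rfl⟩

theorem U_sq_sub_mem_oldSub {N p : ℕ} [NeZero N] (hp : p.Prime) (hpN : ¬ p ∣ N) [NeZero (N * p)]
    (g : CuspForm (Gamma0 (N * p)) 2) :
    CuspForm.heckeULin 2 (dvd_mul_left p N) (CuspForm.heckeULin 2 (dvd_mul_left p N) g) - g ∈
      oldSub N p := by
  rw [oldSub_eq_old N hp.ne_zero]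
  exact U_sq_sub_mem_old hp hpN g

theorem oldSub_stable {N p : ℕ} [NeZero N] (hp : p.Prime) (hpN : ¬ p ∣ N) [NeZero (N * p)]
    (S : Set ℕ) :
    ∀ t ∈ CuspForm.heckeGenerators (N * p) 2 S, ∀ f ∈ oldSub N p, t f ∈ oldSub N p := by
  rw [oldSub_eq_old N hp.ne_zero]
  exact old_stable hp hpN S

theorem heckeAlgebra_oldSub {N p : ℕ} [NeZero N] (hp : p.Prime) (hpN : ¬ p ∣ N) [NeZero (N * p)]
    (S : Set ℕ) (t : Module.End ℂ (CuspForm (Gamma0 (N * p)) 2))
    (ht : t ∈ CuspForm.heckeAlgebra (N * p) 2 S)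
    {x : CuspForm (Gamma0 (N * p)) 2} (hx : x ∈ oldSub N p) : t x ∈ oldSub N p := by
  rw [oldSub_eq_old N hp.ne_zero] at hx ⊢
  exact heckeAlgebra_old hp hpN S t ht hx

end Fermat.Agent.S41.Forms
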