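import Fermat.Agent.MR.Glue.Out
import Fermat.Agent.S49.Abstract
import Fermat.Prelude.Def_FreyPackage_LevelRaising

/-!
# S41 / FORMS / Lin : the linear algebra of block FORMS

* `exists_eigenvector_of_dual` : a character of a commuting family occurring in the dual space `V^*` occurs in `V`;
* `exists_normalized_full`     : a simultaneous eigenvector of the full Hecke algebra can be normalised (and stays an eigenvector);
* `exists_newform_of_dual`     : `O ⊆ S₂(Γ₀(M))` Hecke stable, `(U_q² - 1) S ⊆ O`; a nonzero functional `v` on `S` killing `O` with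
  `v ∘ T_ℓ = lam ℓ • v` (`ℓ ∈ L`) gives a normalised eigenform `g` with `a_ℓ(g) = lam ℓ` (`ℓ ∈ L`) and `a_q(g)² = 1`.
-/

set_option autoImplicit false

namespace Fermat.Agent.S41.Forms

open CuspForm CongruenceSubgroup ModularFormClass Fermat.Agent.S49

theorem pow_sub_smul_apply {V : Type*} [AddCommGroup V] [Module ℂ V] (f : Module.End ℂ V) (a c : ℂ)
    (g : V) (h : f g = c • g) (k : ℕ) : ((f - a • 1) ^ k) g = (c - a) ^ k • g := by
  induction k with
  | zero => simp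
  | succ k ih =>
    rw [pow_succ', Module.End.mul_apply, ih, map_smul, LinearMap.sub_apply, h, LinearMap.smul_apply,
      Module.End.one_apply, ← sub_smul, smul_smul, pow_succ]

/-- A character of a commuting family occurring in the dual space occurs in the space. -/
theorem exists_eigenvector_of_dual_aux {V : Type*} [AddCommGroup V] [Module ℂ V]
    [FiniteDimensional ℂ V] {T : Type*} [CommRing T] (ρ : T →+* Module.End ℂ V) (χ : T →+* ℂ)
    (v : Module.Dual ℂ V) (hev : ∀ t x, v (ρ t x) = χ t * v x) :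
    ∀ (n : ℕ) (W : Submodule ℂ V), Module.finrank ℂ W = n → (∀ t, ∀ w ∈ W, ρ t w ∈ W) →
      (∃ w ∈ W, v w ≠ 0) → ∃ g ∈ W, g ≠ 0 ∧ ∀ t, ρ t g = χ t • g := by
  have hcomm : ∀ s t : T, ∀ u, ρ s (ρ t u) = ρ t (ρ s u) := by
    intro s t u
    have h1 : ρ s (ρ t u) = ρ (s * t) u := by rw [map_mul]; rfl
    have h2 : ρ t (ρ s u) = ρ (t * s) u := by rw [map_mul]; rfl
    rw [h1, h2, mul_comm]
  intro n
  induction n using Nat.strong_induction_on with
  | _ n ih =>
    rintro W hn hstab ⟨w1, hw1, hvw1⟩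
    by_cases hnil : ∀ t, ∀ w ∈ W, ∃ k : ℕ, ((ρ t - χ t • 1) ^ k) w = 0
    · have hW : W ≠ ⊥ := by
        rintro rfl
        rw [Submodule.mem_bot] at hw1
        rw [hw1, map_zero] at hvw1
        exact hvw1 rfl
      obtain ⟨g, hgW, hg0, hg⟩ := exists_common_eigenvector (Set.range ρ)
        (by
          rintro _ ⟨s, rfl⟩ _ ⟨t, rfl⟩
          exact LinearMap.ext (hcomm s t)) _ W rfl hW
        (by
          rintro _ ⟨s, rfl⟩ u hu
          exact hstab s u hu)
      refine ⟨g, hgW, hg0, fun t => ?_⟩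
      obtain ⟨c, hc⟩ := hg (ρ t) ⟨t, rfl⟩
      obtain ⟨k, hk⟩ := hnil t g hgW
      rw [pow_sub_smul_apply _ _ _ _ hc, smul_eq_zero] at hk
      have h0 : c - χ t = 0 := by
        rcases hk with hk | hk
        · exact eq_zero_of_pow_eq_zero hk
        · exact absurd hk hg0
      rw [hc, sub_eq_zero.mp h0]
    · push Not at hnil
      obtain ⟨t, w0, hw0, hne⟩ := hnil
      set A : Module.End ℂ V := ρ t - χ t • 1 with hA
      have hAW : ∀ w ∈ W, A w ∈ W := by
        intro w hw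
        rw [hA, LinearMap.sub_apply, LinearMap.smul_apply, Module.End.one_apply]
        exact W.sub_mem (hstab t w hw) (W.smul_mem _ hw)
      have hvA : ∀ x, v (A x) = 0 := by
        intro x
        rw [hA, LinearMap.sub_apply, LinearMap.smul_apply, Module.End.one_apply, map_sub, hev,
          map_smul, smul_eq_mul, sub_self]
      have hAcomm : ∀ (s : T) (k : ℕ) (u : V), (A ^ k) (ρ s u) = ρ s ((A ^ k) u) := by
        intro s k
        induction k with
        | zero => intro u; simp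
        | succ k ihk =>
          intro u
          rw [pow_succ, Module.End.mul_apply, Module.End.mul_apply, ← ihk]
          congr 1
          rw [hA, LinearMap.sub_apply, LinearMap.sub_apply, LinearMap.smul_apply,
            LinearMap.smul_apply, Module.End.one_apply, Module.End.one_apply, map_sub, map_smul,
            hcomm]
      let AW : Module.End ℂ W := A.restrict hAW
      have hAWpow : ∀ (k : ℕ) (w : W), (((AW ^ k) w : W) : V) = (A ^ k) (w : V) := by
        intro k w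
        rw [Module.End.pow_restrict k hAW]
        rfl
      have hfit := LinearMap.isCompl_iSup_ker_pow_iInf_range_pow AW
      obtain ⟨a, ha, b, hb, hab⟩ : ∃ a ∈ (⨆ n, LinearMap.ker (AW ^ n)),
          ∃ b ∈ (⨅ n, LinearMap.range (AW ^ n)), a + b = (⟨w1, hw1⟩ : W) := by
        have : (⟨w1, hw1⟩ : W) ∈ (⨆ n, LinearMap.ker (AW ^ n)) ⊔ (⨅ n, LinearMap.range (AW ^ n)) := by
          rw [hfit.sup_eq_top]; trivial
        exact Submodule.mem_sup.mp this
      have hvb : v (b : V) = 0 := by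
        have h1 := (Submodule.mem_iInf _).mp hb 1
        obtain ⟨b', hb'⟩ := h1
        rw [← hb', hAWpow, pow_one]
        exact hvA _
      have hva : v (a : V) ≠ 0 := by
        have h1 : (a : V) + (b : V) = w1 := congrArg Subtype.val hab
        rw [← h1, map_add, hvb, add_zero] at hvw1
        exact hvw1
      obtain ⟨k, hk⟩ : ∃ k, (A ^ k) (a : V) = 0 := by
        have hmono : Monotone (fun n => LinearMap.ker (AW ^ n)) := by
          intro i j hij x hx
          rw [LinearMap.mem_ker] at hx ⊢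
          obtain ⟨d, rfl⟩ := Nat.exists_eq_add_of_le hij
          rw [add_comm, pow_add, Module.End.mul_apply, hx, map_zero]
        obtain ⟨k, hk⟩ := (Submodule.mem_iSup_of_directed _ hmono.directed_le).mp ha
        refine ⟨k, ?_⟩
        rw [← hAWpow, LinearMap.mem_ker.mp hk]
        rfl
      let W' : Submodule ℂ V := W ⊓ (ρ t).maxGenEigenspace (χ t)
      have hmem : ∀ w, w ∈ W' ↔ w ∈ W ∧ ∃ k, (A ^ k) w = 0 := by
        intro w
        simp only [W', Submodule.mem_inf, Module.End.mem_maxGenEigenspace, hA]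
      have hlt : W' < W := by
        refine lt_of_le_of_ne inf_le_left ?_
        intro heq
        rw [← heq, hmem] at hw0
        obtain ⟨-, k, hk⟩ := hw0
        exact hne k hk
      have hfr : Module.finrank ℂ W' < n := hn ▸ Submodule.finrank_lt_finrank_of_lt hlt
      obtain ⟨g, hg, hg0, hg'⟩ := ih _ hfr W' rfl
        (by
          intro s w hw
          rw [hmem] at hw ⊢
          obtain ⟨hwW, k, hk⟩ := hw
          exact ⟨hstab s w hwW, k, by rw [hAcomm, hk, map_zero]⟩)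
        ⟨a, (hmem _).mpr ⟨a.2, k, hk⟩, hva⟩
      exact ⟨g, ((hmem g).mp hg).1, hg0, hg'⟩

theorem exists_eigenvector_of_dual {V : Type*} [AddCommGroup V] [Module ℂ V]
    [FiniteDimensional ℂ V] {T : Type*} [CommRing T] (ρ : T →+* Module.End ℂ V) (χ : T →+* ℂ)
    (v : Module.Dual ℂ V) (hv : v ≠ 0) (hev : ∀ t x, v (ρ t x) = χ t * v x) :
    ∃ g : V, g ≠ 0 ∧ ∀ t, ρ t g = χ t • g := by
  obtain ⟨x, hx⟩ : ∃ x, v x ≠ 0 := by
    by_contra hcon
    push Not at hcon
    exact hv (LinearMap.ext hcon)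
  obtain ⟨g, -, hg0, hg⟩ := exists_eigenvector_of_dual_aux ρ χ v hev _ ⊤ rfl
    (fun _ _ _ => trivial) ⟨x, trivial, hx⟩
  exact ⟨g, hg0, hg⟩

/-- A simultaneous eigenvector of the full Hecke algebra can be normalised (version of
`S49.exists_normalized_of_eigenvector` which remembers that `g` is an eigenvector). -/
theorem exists_normalized_full {N : ℕ} [NeZero N] (v : CuspForm (Gamma0 N) 2)
    (hv : v ≠ 0) (χ : heckeAlgebra N 2 ∅ →+* ℂ) (hev : ∀ t : heckeAlgebra N 2 ∅, t.1 v = χ t • v) :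
    ∃ g : CuspForm (Gamma0 N) 2, g.IsNormalizedEigenform ∧
      ∀ t : heckeAlgebra N 2 ∅, t.1 g = χ t • g := by
  classical
  let e : ℕ → ℂ := fun ℓ => if ℓ ∣ N then 0 else (ℓ : ℂ)
  have hrel : ∀ (w : CuspForm (Gamma0 N) 2) (_ : ∀ t : heckeAlgebra N 2 ∅, t.1 w = χ t • w)
      (ℓ : ℕ) (hℓ : ℓ.Prime), ∃ c : ℂ,
      (∀ hℓN : ¬ ℓ ∣ N, c = χ (heckeAlgebra.T hℓ hℓN (Set.notMem_empty ℓ))) ∧ ∀ n : ℕ,
      qCoeff w (ℓ * n) + e ℓ * (if ℓ ∣ n then qCoeff w (n / ℓ) else 0) = c * qCoeff w n := by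
    intro w hw ℓ hℓ
    by_cases hℓN : ℓ ∣ N
    · refine ⟨χ (heckeAlgebra.U hℓ hℓN (Set.notMem_empty ℓ)), fun h => absurd hℓN h, fun n => ?_⟩
      have h1 := hw (heckeAlgebra.U hℓ hℓN (Set.notMem_empty ℓ))
      rw [heckeAlgebra.coe_U] at h1
      have h2 := qc_U hℓ hℓN w n
      rw [h1, qc_smul] at h2
      simp only [e, if_pos hℓN, zero_mul, add_zero]
      exact h2.symm
    · refine ⟨χ (heckeAlgebra.T hℓ hℓN (Set.notMem_empty ℓ)), fun _ => rfl, fun n => ?_⟩
      have h1 := hw (heckeAlgebra.T hℓ hℓN (Set.notMem_empty ℓ))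
      rw [heckeAlgebra.coe_T] at h1
      have h2 := qc_T hℓ hℓN w n
      rw [h1, qc_smul] at h2
      simp only [e, if_neg hℓN]
      exact h2.symm
  have hb1 : qCoeff v 1 ≠ 0 := by
    intro h1
    apply hv
    apply qc_ext
    intro n
    rcases Nat.eq_zero_or_pos n with rfl | hn
    · exact qc_zero v
    · exact eig_vanish (e := e) (fun ℓ hℓ => by
        obtain ⟨c, -, hc⟩ := hrel v hev ℓ hℓ
        exact ⟨c, hc⟩) h1 n hn
  let g : CuspForm (Gamma0 N) 2 := (qCoeff v 1)⁻¹ • v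
  have hg : ∀ t : heckeAlgebra N 2 ∅, t.1 g = χ t • g := by
    intro t
    simp only [g]
    rw [map_smul, hev, smul_comm]
  have hg1 : qCoeff g 1 = 1 := by
    simp only [g]
    rw [qc_smul, inv_mul_cancel₀ hb1]
  have hgℓ : ∀ (ℓ : ℕ) (hℓ : ℓ.Prime), ∀ c : ℂ, (∀ n : ℕ,
      qCoeff g (ℓ * n) + e ℓ * (if ℓ ∣ n then qCoeff g (n / ℓ) else 0) = c * qCoeff g n) →
      c = qCoeff g ℓ := by
    intro ℓ hℓ c hc
    have h1 := hc 1
    have h2 : ¬ ℓ ∣ 1 := fun h => hℓ.one_lt.ne' (Nat.dvd_one.mp h)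
    rw [if_neg h2, mul_zero, add_zero, mul_one, hg1, mul_one] at h1
    exact h1.symm
  have heig : FormalHecke.IsEigensystem e (fun n => qCoeff g n) := by
    refine ⟨hg1, fun ℓ hℓ n => ?_⟩
    obtain ⟨c, -, hc⟩ := hrel g hg ℓ hℓ
    have := hgℓ ℓ hℓ c hc
    show qCoeff g (ℓ * n) + e ℓ * (if ℓ ∣ n then qCoeff g (n / ℓ) else 0)
      = qCoeff g ℓ * qCoeff g n
    rw [← this]
    exact hc n
  refine ⟨g, ⟨hg1, eig_mul_of_coprime heig, ?_, ?_⟩, hg⟩
  · intro p r hp hpN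
    have := eig_prime_pow heig hp r
    simpa only [e, if_neg hpN] using this
  · intro p r hp hpN
    have := eig_prime_pow heig hp r
    simpa only [e, if_pos hpN, zero_mul, sub_zero] using this

/-- **The linear algebra of FORMS.** -/
theorem exists_newform_of_dual {M q : ℕ} [NeZero M] (hq : q.Prime) (hqM : q ∣ M)
    (O : Submodule ℂ (CuspForm (Gamma0 M) 2))
    (hstab : ∀ t ∈ heckeGenerators M 2 ∅, ∀ f ∈ O, t f ∈ O)
    (hU : ∀ g : CuspForm (Gamma0 M) 2, heckeULin 2 hqM (heckeULin 2 hqM g) - g ∈ O)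
    (v : Module.Dual ℂ (CuspForm (Gamma0 M) 2)) (hv : v ≠ 0) (hvO : ∀ f ∈ O, v f = 0)
    (L : Set ℕ) (lam : ℕ → ℂ)
    (hev : ∀ (ℓ : ℕ) (hℓ : ℓ.Prime) (hℓM : ¬ ℓ ∣ M), ℓ ∈ L →
      ∀ f, v (heckeTLin 2 hℓ hℓM f) = lam ℓ * v f) :
    ∃ g : CuspForm (Gamma0 M) 2, g.IsNormalizedEigenform ∧
      (∀ ℓ : ℕ, ℓ.Prime → ¬ ℓ ∣ M → ℓ ∈ L → qCoeff g ℓ = lam ℓ) ∧ g.IsNewAt q := by
  classical
  have hfd : FiniteDimensional ℂ (CuspForm (Gamma0 M) 2) :=
    finiteDimensional_of_hasIntegralBasis (MR.Glue.hasIntegralBasis M)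
  -- `O` is stable under the full Hecke algebra
  have hstab' : ∀ t : heckeAlgebra M 2 ∅, ∀ f ∈ O, t.1 f ∈ O := by
    rintro ⟨t, ht⟩
    show ∀ f ∈ O, t f ∈ O
    change t ∈ Algebra.adjoin ℤ (heckeGenerators M 2 ∅) at ht
    induction ht using Algebra.adjoin_induction with
    | mem x hx => exact hstab x hx
    | algebraMap r =>
      intro f hf
      have : (algebraMap ℤ (Module.End ℂ (CuspForm (Gamma0 M) 2)) r) f = (r : ℂ) • f := by
        rw [Int.cast_smul_eq_zsmul]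
        simp
      rw [this]
      exact O.smul_mem _ hf
    | add x y _ _ hx hy => exact fun f hf => O.add_mem (hx f hf) (hy f hf)
    | mul x y _ _ hx hy => exact fun f hf => hx _ (hy f hf)
  have hcomm : ∀ (s t : heckeAlgebra M 2 ∅) (f : CuspForm (Gamma0 M) 2),
      s.1 (t.1 f) = t.1 (s.1 f) := by
    intro s t f
    have h := congrArg (fun u : heckeAlgebra M 2 ∅ => u.1 f) (mul_comm s t)
    exact h
  -- the dual operators
  let D : heckeAlgebra M 2 ∅ → Module.End ℂ (Module.Dual ℂ (CuspForm (Gamma0 M) 2)) :=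
    fun t => LinearMap.dualMap t.1
  have hD : ∀ t φ x, D t φ x = φ (t.1 x) := fun _ _ _ => rfl
  let W : Submodule ℂ (Module.Dual ℂ (CuspForm (Gamma0 M) 2)) :=
    { carrier := {φ | (∀ f ∈ O, φ f = 0) ∧ ∀ (ℓ : ℕ) (hℓ : ℓ.Prime) (hℓM : ¬ ℓ ∣ M), ℓ ∈ L →
        ∀ f, φ (heckeTLin 2 hℓ hℓM f) = lam ℓ * φ f}
      add_mem' := by
        rintro φ ψ ⟨h1, h2⟩ ⟨h3, h4⟩
        refine ⟨fun f hf => ?_, fun ℓ hℓ hℓM hL f => ?_⟩
        · rw [LinearMap.add_apply, h1 f hf, h3 f hf, add_zero]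
        · rw [LinearMap.add_apply, LinearMap.add_apply, h2 ℓ hℓ hℓM hL, h4 ℓ hℓ hℓM hL, mul_add]
      zero_mem' := ⟨fun _ _ => rfl, fun _ _ _ _ _ => by simp⟩
      smul_mem' := by
        rintro c φ ⟨h1, h2⟩
        refine ⟨fun f hf => ?_, fun ℓ hℓ hℓM hL f => ?_⟩
        · rw [LinearMap.smul_apply, h1 f hf, smul_zero]
        · rw [LinearMap.smul_apply, LinearMap.smul_apply, h2 ℓ hℓ hℓM hL, smul_eq_mul, smul_eq_mul]
          ring }
  have hmemW : ∀ φ, φ ∈ W ↔ (∀ f ∈ O, φ f = 0) ∧ ∀ (ℓ : ℕ) (hℓ : ℓ.Prime) (hℓM : ¬ ℓ ∣ M),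
      ℓ ∈ L → ∀ f, φ (heckeTLin 2 hℓ hℓM f) = lam ℓ * φ f := fun _ => Iff.rfl
  have hWne : W ≠ ⊥ := by
    intro h
    have : v ∈ W := (hmemW v).mpr ⟨hvO, hev⟩
    rw [h, Submodule.mem_bot] at this
    exact hv this
  obtain ⟨v', hv'W, hv'0, hv'⟩ := exists_common_eigenvector (Set.range D)
    (by
      rintro _ ⟨s, rfl⟩ _ ⟨t, rfl⟩
      refine LinearMap.ext fun φ => LinearMap.ext fun x => ?_
      show φ (t.1 (s.1 x)) = φ (s.1 (t.1 x))
      rw [hcomm]) _ W rfl hWne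
    (by
      rintro _ ⟨t, rfl⟩ φ hφ
      rw [hmemW] at hφ ⊢
      refine ⟨fun f hf => ?_, fun ℓ hℓ hℓM hL f => ?_⟩
      · rw [hD]
        exact hφ.1 _ (hstab' t f hf)
      · rw [hD, hD]
        have h1 := hcomm t (heckeAlgebra.T hℓ hℓM (Set.notMem_empty ℓ)) f
        rw [heckeAlgebra.coe_T] at h1
        rw [h1, hφ.2 ℓ hℓ hℓM hL])
  obtain ⟨x0, hx0⟩ : ∃ x, v' x ≠ 0 := by
    by_contra hcon
    push Not at hcon
    exact hv'0 (LinearMap.ext hcon)
  choose μ₀ hμ₀ using fun t => hv' (D t) ⟨t, rfl⟩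
  have hμ : ∀ t x, v' (t.1 x) = μ₀ t * v' x := by
    intro t x
    have := congrArg (fun φ : Module.Dual ℂ (CuspForm (Gamma0 M) 2) => φ x) (hμ₀ t)
    exact this
  have hinj : ∀ c d : ℂ, (∀ x, c * v' x = d * v' x) → c = d :=
    fun c d h => mul_right_cancel₀ hx0 (h x0)
  let χ : heckeAlgebra M 2 ∅ →+* ℂ :=
    { toFun := μ₀
      map_one' := hinj _ _ fun x => by
        rw [← hμ, one_mul]
        rfl
      map_mul' := fun s t => hinj _ _ fun x => by
        rw [← hμ, mul_assoc, ← hμ t, ← hμ s]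
        rfl
      map_zero' := hinj _ _ fun x => by
        rw [← hμ, zero_mul]
        exact map_zero v'
      map_add' := fun s t => hinj _ _ fun x => by
        rw [← hμ, add_mul, ← hμ, ← hμ, ← map_add]
        rfl }
  have hχ : ∀ t x, v' (t.1 x) = χ t * v' x := hμ
  obtain ⟨g0, hg0, hg0ev⟩ := exists_eigenvector_of_dual
    ((heckeAlgebra M 2 ∅).val : heckeAlgebra M 2 ∅ →+* Module.End ℂ (CuspForm (Gamma0 M) 2))
    χ v' hv'0 hχ
  obtain ⟨g, hg, hgev⟩ := exists_normalized_full g0 hg0 χ hg0ev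
  refine ⟨g, hg, ?_, ?_⟩
  · intro ℓ hℓ hℓM hL
    have h1 := hgev (heckeAlgebra.T hℓ hℓM (Set.notMem_empty ℓ))
    rw [heckeAlgebra.coe_T] at h1
    have h2 := qc_T hℓ hℓM g 1
    have h3 : ¬ ℓ ∣ 1 := fun h => hℓ.one_lt.ne' (Nat.dvd_one.mp h)
    rw [h1, qc_smul, hg.qCoeff_one, mul_one, mul_one, if_neg h3, mul_zero, add_zero] at h2
    rw [← h2]
    apply hinj
    intro x
    rw [← hχ, heckeAlgebra.coe_T]
    exact ((hmemW v').mp hv'W).2 ℓ hℓ hℓM hL x
  · have h1 := hgev (heckeAlgebra.U hq hqM (Set.notMem_empty q))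
    rw [heckeAlgebra.coe_U] at h1
    have h2 := qc_U hq hqM g 1
    rw [h1, qc_smul, hg.qCoeff_one, mul_one, mul_one] at h2
    show qCoeff g q ^ 2 = 1
    rw [← h2]
    apply hinj
    intro x
    have h3 := ((hmemW v').mp hv'W).1 _ (hU x)
    rw [map_sub, sub_eq_zero] at h3
    have h4 := hχ (heckeAlgebra.U hq hqM (Set.notMem_empty q))
    rw [heckeAlgebra.coe_U] at h4
    rw [h4, h4] at h3
    linear_combination h3

end Fermat.Agent.S41.Forms
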